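import Fermat.Agent.S19.G.Asm
import Fermat.Agent.S37.ModRed

/-!
# S19, layer G : the geometric core (GC) at a level divisible by `r ∈ {2, 3}`      key [S19/G-INST]
Owner: helper24.  Blueprint: briefing `S19-BLUEPRINT-G` + headers of `G/ML.lean`, `G/Rep.lean`, `G/Asm.lean`.

`gc_chi` = `gc_abs` for `F = FN M`, `L = LT H hrM`, `τ = tauL H hrM`, `H = haupt M r hr hrM`.  Copy the preamble of `S37.redPkg_level` (`S37/ModRed.lean`):
`finiteDimensional_LT`, `transcendental_tauL`, `isGen_tauL`, `Branch.exists_unit_Br`, `exists_redData .. (fld_mod ..)`, `Arch.arch A hℓ hA`, `isFF_FN M`.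
* `g : GoodRed` with `g.β = β`, `β i = jM ^ i`: copy the proof of `S18.exists_goodRed` (`S18/ModGood.lean`), keeping the second component of `KL.GoodRed.ofDet`.
* `hscale`: `RedPkgAux.conv_input` with `N = M`, `hNM = dvd_rfl` (`incl dvd_rfl x = x` by `Subtype.ext (coe_incl ..)`).
* `GalData`: `base` is `rfl`; `tau`: `algebraMap_tauL` + `gal_tauF`; `beta`: `smul_pow'` + the `q`-expansion of `jF M M _` has rational coefficients
  (`Subtype.ext`, `coe_arithmeticGalois_smul`, `coeffMap` of a `coeffEmb`: grep `coeffMap_tq`, `coeffMap_coeffEmb`, `gal .. jF` in S29/S33/S37).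
-/

set_option autoImplicit false
set_option synthInstance.maxHeartbeats 400000
set_option linter.unusedSectionVars false

noncomputable section

namespace Fermat.Agent.S19

open AlgebraicCurve ModularCurve Fermat.Agent.S37 Fermat.Agent.S27 Fermat.Agent.S24 Fermat.Agent.S18

/-- `GoodRed` with the explicit rational basis `j_M ^ i` (copy of `S18.exists_goodRed`) -/
theorem inst_goodRed {M r : ℕ} [NeZero M] (H : Haupt M r) (hrM : r ∣ M) (A : ValuationSubring Kb) {l : ℕ}
    (hl : l.Prime) (hA : A.LiesOverPrime l) (hlM : ¬ l ∣ M) :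
    ∃ g : KL.GoodRed A (tauL H hrM) (FN M) (Fin (Nat.card (X0 M r))),
      ∀ i, g.β i = jF M M dvd_rfl ^ (i : ℕ) := by
  have hfin := finiteDimensional_LT H hrM
  obtain ⟨β, hβ⟩ := exists_basis H hrM
  have hiota := iota_det_traceMatrix H hrM β hβ
  have hinv : ∀ g : Matrix.SpecialLinearGroup (Fin 2) ℤ, (r : ℤ) ∣ g 1 0 →
      g • (Matrix.vandermonde (vq M r)).det ^ 2 = (Matrix.vandermonde (vq M r)).det ^ 2 := by
    intro g hg
    apply aM_injective
    rw [aM_smul, ← hiota, merAct_iota_LT H hrM hg]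
  obtain ⟨x', hx', -⟩ := exists_LT_of_invariant H hrM _ hinv
  have hx : x' = (Algebra.traceMatrix (LT H hrM) β).det :=
    Subtype.ext ((iota M).injective (by rw [hx'.iota_eq]; exact hiota.symm))
  rw [hx] at hx'
  obtain ⟨g, hg⟩ := KL.GoodRed.ofDet (A := A) (transcendental_tauL H hrM) (isGen_tauL H hrM) β
    (fun i => by rw [hβ]; exact pow_mem (jM_mem_VV H hrM A) _)
    (inv_mem_OG_of_corr H hrM A hinv hx' (disc_notMem_Pr A hl hA hlM))
  exact ⟨g, fun i => by rw [hg, hβ]⟩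

theorem inst_gal_jF (M : ℕ) [NeZero M] (ρ : GQ) :
    arithmeticGalois (modularFunctionFieldFull M) ρ • jF M M dvd_rfl = jF M M dvd_rfl := by
  apply Subtype.ext
  rw [coe_arithmeticGalois_smul]
  exact coeffMap_coeffEmb ρ _

theorem gc_chi (M : ℕ) [NeZero M] {r : ℕ} (hr : r = 2 ∨ r = 3) (hrM : r ∣ M) {ℓ : ℕ} (hℓ : ℓ.Prime)
    (hℓM : ¬ ℓ ∣ M) (A : ValuationSubring Qb) (hA : A.LiesOverPrime ℓ) {n : ℕ} (hn : 0 < n)
    (y : TD Kb (FN M) n) (x : JZero M) (hx : n • x = 0) :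
    GCfun A (fun ρ => chi (y.tr (arithmeticGalois (modularFunctionFieldFull M) ρ)) x) := by
  have : NeZero r := ⟨by rcases hr with rfl | rfl <;> norm_num⟩
  let H : Haupt M r := haupt M r hr hrM
  have hfin := finiteDimensional_LT H hrM
  have hτ := transcendental_tauL H hrM
  have hgen := isGen_tauL H hrM
  obtain ⟨g, hg⟩ := inst_goodRed H hrM A hℓ hA hℓM
  have hrl : ¬ ℓ ∣ r := fun h => hℓM (h.trans hrM)
  obtain ⟨c0, hc0, hbr⟩ := Branch.exists_unit_Br hr hrM H A (RedPkgAux.inv_natCast_mem A hℓ hA hrl)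
    (tauF H hrM) (corr_tauF H hrM).iota_eq
  obtain ⟨Ft, _, _, red, hRD⟩ := exists_redData hτ hgen (fld_mod H hrM A hℓ hA hℓM)
  have hscale : ∀ u : FN M, u ≠ 0 → ∃ a : Qb, a ≠ 0 ∧
      algebraMap Qb (FN M) a * u ∈ KL.VV A (tauL H hrM) (FN M) ∧
      (algebraMap Qb (FN M) a * u)⁻¹ ∈ KL.VV A (tauL H hrM) (FN M) := by
    intro u hu
    obtain ⟨c, hc, h1, h2, -⟩ := RedPkgAux.conv_input (A := A) H hrM hℓ hA hℓM (dvd_refl M) hu
    have e : incl (dvd_refl M) (algebraMap Kb (FN M) c * u) = algebraMap Kb (FN M) c * u :=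
      Subtype.ext (coe_incl _ _)
    rw [e] at h1 h2
    exact ⟨c, hc, h1, h2⟩
  refine gc_abs (isFF_FN M) (Arch.arch A hℓ hA) hτ hgen g c0 hc0 hbr hRD hscale
    (gal := arithmeticGalois (modularFunctionFieldFull M)) ⟨fun ρ a => rfl, fun ρ => ?_, fun ρ i => ?_⟩
    hn y x hx
  · rw [algebraMap_tauL]
    exact gal_tauF M r hr hrM ρ
  · show _ • g.β i = g.β i
    rw [hg, smul_pow', inst_gal_jF]

end Fermat.Agent.S19
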