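import Fermat.Agent.S19.G.ML
import Fermat.Agent.S19.W.Eval

/-!
# S19, layer G, key [S19/G-DATUM] : moving a torsion datum to good position (from `ml_div` and the scaling hypothesis)
-/

set_option autoImplicit false
set_option linter.unusedSectionVars false

noncomputable section

namespace Fermat.Agent.S19

open Polynomial Fermat.Agent.S18.KL Fermat.Agent.S37 Fermat.Agent.S27 IsDedekindDomain AlgebraicCurve

variable {A : ValuationSubring Qb}
variable {L : Type*} [Field L] [Algebra Qb L] {τ : L}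
variable {F : Type*} [Field F] [Algebra L F] [Algebra Qb F] [IsScalarTower Qb L F]
variable {ι : Type*} [Fintype ι]
variable {Ft : Type*} [Field Ft] [Algebra (kk A) Ft] {O : Subring F} {red : O →+* Ft}

/-- [S19/G-DATUM] -/
theorem datum_main [FiniteDimensional L F] (hF : IsFF Qb F) (hA : Arch A)
    (hτ : Transcendental Qb τ) (hgen : IsGen Qb τ) (g : GoodRed A τ F ι)
    (c0 : A) (hc0 : IsUnit c0) (hbr : Br Qb τ F (c0 : Qb)) (h : RedData A τ F O red)
    (hscale : ∀ u : F, u ≠ 0 → ∃ a : Qb, a ≠ 0 ∧ algebraMap Qb F a * u ∈ VV A τ F ∧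
      (algebraMap Qb F a * u)⁻¹ ∈ VV A τ F)
    (θ : (↥A)[X]) (hθ : redP A θ ≠ 0) {n : ℕ} (y : TD Qb F n) :
    ∃ (y' : TD Qb F n) (f : F) (c : Qb), f ≠ 0 ∧ c ≠ 0 ∧ (∀ P, y'.D P = y.D P + P.ord f) ∧
      y'.u = algebraMap Qb F c * y.u * f ^ n ∧
      (∀ P ∈ y'.D.support, GoodAt A (algebraMap L F τ) θ P) ∧
      y'.u ∈ VV A τ F ∧ y'.u⁻¹ ∈ VV A τ F := by
  obtain ⟨f, hf0, hf⟩ := ml_div hA hτ hgen g c0 hc0 hbr h θ hθ y.D
  have hne : y.u * f ^ n ≠ 0 := mul_ne_zero y.u_ne (pow_ne_zero _ hf0)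
  obtain ⟨a, ha0, h1, h2⟩ := hscale _ hne
  obtain ⟨Df, hDf, -⟩ := hF.hasPrincipalDivisors.exists_divisor f hf0
  have ha' : algebraMap Qb F a ≠ 0 := by rw [Ne, map_eq_zero]; exact ha0
  have e : algebraMap Qb F a * y.u * f ^ n = algebraMap Qb F a * (y.u * f ^ n) := mul_assoc _ _ _
  refine ⟨⟨y.D + Df, algebraMap Qb F a * y.u * f ^ n, by rw [e]; exact mul_ne_zero ha' hne,
    fun P => ?_⟩, f, a, hf0, ha0, fun P => ?_, rfl, fun P hP => ?_, ?_, ?_⟩
  · rw [e, P.ord_mul ha' hne, P.ord_mul y.u_ne (pow_ne_zero _ hf0), ord_algebraMap_eq_zero,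
      y.ord_u, ← zpow_natCast, P.ord_zpow, Finsupp.add_apply, hDf]
    ring
  · show (y.D + Df) P = _
    rw [Finsupp.add_apply, hDf]
  · apply hf P
    have : (y.D + Df) P ≠ 0 := Finsupp.mem_support_iff.1 hP
    rwa [Finsupp.add_apply, hDf] at this
  · show algebraMap Qb F a * y.u * f ^ n ∈ _
    rw [e]; exact h1
  · show (algebraMap Qb F a * y.u * f ^ n)⁻¹ ∈ _
    rw [e]; exact h2

end Fermat.Agent.S19
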