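import Fermat.Agent.S19.G.Defs

/-!
# S19, layer G, keys [S19/G-REP], [S19/G-B0], [S19/G-Q] : integral representation of functions in the basis `g.β`

## REP (`rep`)
`β i ∈ VV`: choose `S i` primitive with `S i(τ) β i ∈ C0`; `Sβ := ∏ S i`, `β' i := Sβ(τ) β i ∈ C0`.
`G' := traceMatrix (β')`, entries `Tr (β' i β' j) = evL (P i j)` (`trace_mem_of_C0`), so `det G' = evL δ`, `adj G'` has entries `evL (..)`
(determinants of matrices with entries in the range of the ring hom `evL`: `RingHom.map_det`, `RingHom.map_adjugate` for the matrix `P` over `A[X]`).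
`redP δ ≠ 0`: `det G' = Sβ(τ)^(2n) det G`, `det G` is a unit of `OG` (`(det G)⁻¹ ∈ OG`: see the lemma just before `GoodRed.ofDet` in `S18/Z/Basis.lean`
(inverse direction: from `selfdual`), or redo: dual basis has coordinates in `OG`), `Sβ(τ)` is a unit of `OG` (`inv_evL_mem_OG`);
if `redP δ = 0` then `SmG (evL δ)` (`SmG_evL_iff`), and a unit of `OG` is not `SmG` (`not_SmG_one`, `SmG.mul_left`).
`θ₀ := Sβ * δ`  (or `Sβ^2 * δ`, whatever is convenient).
For `u ∈ VV`, `q(τ) u ∈ B0`: `u' := q(τ) u ∈ B0 ∩ VV = C0` (`mem_C0_of_mem_B0_VV`).  `det_mul_repr` for the basis `β'` (a basis: unit multiples; or use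
`det_mul_repr` for `β` and multiply): `det G' * repr_{β'} u' i = ∑ j adj G' i j * Tr (u' β' j)`, all in the range of `evL`; so
`δ(τ) u' = ∑ i evE (p' i) β' i = ∑ i evE (p' i * Sβ) β i`.
Values: `GoodAt θ₀ P` ⟹ `τ(P) = c ∈ A`; `β' i ∈ C0` has a value `b' ∈ A` at `P` (integral over `A[τ]`: `ChartCompat.coord` / `S37/BrHyp.lean br4_coord_val`,
or directly: the value is a root of a monic polynomial over `A`, and `A` is integrally closed), `Sβ(c)` is a unit, `β i = β' i / Sβ(τ)`.

## B0 (`mem_B0_of_reg`)  `B0` is Dedekind with fraction field `F` (`isDedekindDomain_B0`, `isFractionRing_B0`); places `ofH w`; `z = a / b`,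
`ordH w b ≤ ordH w a` for all `w` ⟹ `b ∣ a` (compare `Glue.mem_range_of_ord_eq_zero` in `S37/ChartGlueAux.lean`).

## Q (`exists_q`)  `q := ∏_{P ∈ S} (X - C (c P)) ^ (e P)`, `e P := (- P.ord u).toNat`.
-/

set_option autoImplicit false
set_option linter.unusedSectionVars false

noncomputable section

namespace Fermat.Agent.S19

open Polynomial Fermat.Agent.S18.KL Fermat.Agent.S37 IsDedekindDomain AlgebraicCurve

variable {K : Type*} [Field K] {A : ValuationSubring K}
variable {L : Type*} [Field L] [Algebra K L] {τ : L}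
variable {F : Type*} [Field F] [Algebra L F] [Algebra K F] [IsScalarTower K L F]

theorem rep_val_add {P : Place K F} {f f' : F} {c c' : K} (h : Glue.Val P f c)
    (h' : Glue.Val P f' c') : Glue.Val P (f + f') (c + c') := by
  have : f + f' - algebraMap K F (c + c') = (f - algebraMap K F c) + (f' - algebraMap K F c') := by
    rw [map_add]; ring
  unfold Glue.Val
  rw [this]
  exact Glue.Van.add h h'

theorem rep_val_evE {P : Place K F} {c : A} (h : Glue.Val P (algebraMap L F τ) (c : K))
    (S : (↥A)[X]) : Glue.Val P (evE A τ F S) ((S.eval c : A) : K) := by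
  induction S using Polynomial.induction_on' with
  | add p q hp hq =>
    rw [map_add, eval_add]
    exact rep_val_add hp hq
  | monomial n a =>
    rw [← C_mul_X_pow_eq_monomial, map_mul, map_pow, evE_C_eq, eval_mul, eval_C, eval_pow, eval_X]
    have hX : evE A τ F X = algebraMap L F τ := by rw [evE_apply, evL_X]
    rw [hX]
    have hpow : ∀ n : ℕ, Glue.Val P ((algebraMap L F τ) ^ n) ((c : K) ^ n) := by
      intro n
      induction n with
      | zero => simpa using Glue.val_one (P := P)
      | succ n ih => rw [pow_succ, pow_succ]; exact ih.mul h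
    exact (Glue.val_const (a : K)).mul (hpow n)

theorem rep_val_C0 [IsAlgClosed K] [CharZero K] [FiniteDimensional L F]
    (hτ : Transcendental K τ) (hgen : IsGen K τ) {P : Place K F} {c : A}
    (h : Glue.Val P (algebraMap L F τ) (c : K)) {x : F} (hx : x ∈ C0 A τ F) :
    ∃ b : A, Glue.Val P x (b : K) := by
  have : IsDedekindDomain ↥(B0 K τ F) := isDedekindDomain_B0 hτ hgen
  have : IsFractionRing ↥(B0 K τ F) F := isFractionRing_B0 hτ hgen
  obtain ⟨w, rfl⟩ := S24.exists_heightOneSpectrum_of_le (R := ↥(B0 K τ F)) P (int_B0 P h.mem)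
  have h1 : (⟨algebraMap L F τ, C0_le_B0 A (tau_mem_C0 A τ F)⟩ : ↥(B0 K τ F)) -
      algebraMap K ↥(B0 K τ F) c ∈ w.asIdeal := by
    rw [← Glue.val_ofH_iff (K := K) (F := F)]
    exact h
  obtain ⟨a, ha⟩ := br4_coord_val hτ hgen w c h1 ⟨x, C0_le_B0 A hx⟩ hx
  exact ⟨a, (Glue.val_ofH_iff (K := K) (F := F) w _ _).mpr ha⟩

/-- [S19/G-REP] -/
theorem rep [IsAlgClosed K] [CharZero K] [FiniteDimensional L F]
    (hτ : Transcendental K τ) (hgen : IsGen K τ) {ι : Type*} [Fintype ι] (g : GoodRed A τ F ι) :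
    ∃ θ₀ : (↥A)[X], redP A θ₀ ≠ 0 ∧
      (∀ (i : ι) (P : Place K F), GoodAt A (algebraMap L F τ) θ₀ P →
        ∃ b : A, Glue.Val P (g.β i) (b : K)) ∧
      ∀ u ∈ VV A τ F, ∀ q : (↥A)[X], evE A τ F q * u ∈ B0 K τ F →
        ∃ p : ι → (↥A)[X], evE A τ F (θ₀ * q) * u = ∑ i, evE A τ F (p i) * g.β i := by
  classical
  have : CharZero L := charZero_of_injective_algebraMap (algebraMap K L).injective
  choose S hS hSmem using fun j => g.mem j
  set Sβ : (↥A)[X] := ∏ j, S j with hSβdef
  have hSβ : redP A Sβ ≠ 0 := by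
    rw [hSβdef, map_prod]; exact Finset.prod_ne_zero_iff.2 (fun j _ => hS j)
  have hSβmem : ∀ j, evE A τ F Sβ * g.β j ∈ C0 A τ F := by
    intro j
    have : Sβ = (∏ i ∈ Finset.univ.erase j, S i) * S j := by
      rw [hSβdef, Finset.prod_erase_mul _ _ (Finset.mem_univ j)]
    rw [this, map_mul, mul_assoc]
    exact (C0 A τ F).mul_mem (evE_mem_C0 A τ F _) (hSmem j)
  have hB : (Algebra.traceForm L F).Nondegenerate := traceForm_nondegenerate L F
  set d := (Algebra.traceForm L F).dualBasis hB g.β with hddef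
  have hd : ∀ j i, Algebra.trace L F (d j * g.β i) = if i = j then 1 else 0 := fun j i => by
    have := LinearMap.BilinForm.apply_dualBasis_left hB g.β j i
    rwa [Algebra.traceForm_apply] at this
  have hc : ∀ j i, g.β.repr (d j) i ∈ OG A τ := fun j => g.selfdual (d j) (fun i => by
    rw [hd]; split_ifs
    · exact (OG A τ).one_mem
    · exact (OG A τ).zero_mem)
  choose N D hD hND using hc
  set Dtot : (↥A)[X] := ∏ x : ι × ι, D x.1 x.2 with hDtot
  have hDtot0 : redP A Dtot ≠ 0 := by
    rw [hDtot, map_prod]; exact Finset.prod_ne_zero_iff.2 (fun x _ => hD x.1 x.2)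
  let E : ι → ι → (↥A)[X] := fun j i => ∏ x ∈ Finset.univ.erase (j, i), D x.1 x.2
  have hE : ∀ j i, D j i * E j i = Dtot := fun j i =>
    Finset.mul_prod_erase Finset.univ (fun x : ι × ι => D x.1 x.2) (Finset.mem_univ (j, i))
  refine ⟨Dtot * Sβ, by rw [map_mul]; exact mul_ne_zero hDtot0 hSβ, ?_, ?_⟩
  · intro i P hP
    obtain ⟨c, hc, hu⟩ := hP.of_mul_right
    obtain ⟨b', hb'⟩ := rep_val_C0 hτ hgen hc (hSβmem i)
    have h1 := rep_val_evE (τ := τ) (F := F) hc Sβ
    obtain ⟨v, hv⟩ := hu
    have hv0 : ((Sβ.eval c : A) : K) ≠ 0 := by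
      rw [← hv]
      intro h0
      exact v.ne_zero (Subtype.ext h0)
    have h2 := (h1.inv hv0).mul hb'
    have h3 : (evE A τ F Sβ)⁻¹ * (evE A τ F Sβ * g.β i) = g.β i := by
      have hne : evE A τ F Sβ ≠ 0 := by
        intro h0
        rw [h0] at h1
        have := Glue.Val.unique h1 (by simpa using Glue.val_const (P := P) (0 : K))
        exact hv0 this
      rw [← mul_assoc, inv_mul_cancel₀ hne, one_mul]
    rw [h3] at h2
    refine ⟨((v⁻¹ : (↥A)ˣ) : A) * b', ?_⟩
    have h4 : ((((v⁻¹ : (↥A)ˣ) : A) * b' : A) : K) = ((Sβ.eval c : A) : K)⁻¹ * (b' : K) := by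
      have h5 : (((v⁻¹ : (↥A)ˣ) : A) : K) = ((Sβ.eval c : A) : K)⁻¹ := by
        rw [← hv]
        apply eq_inv_of_mul_eq_one_left
        exact congrArg Subtype.val v.inv_mul
      push_cast
      rw [h5]
    rw [h4]
    exact h2
  · intro u hu q hq
    set u' := evE A τ F q * u with hu'
    have hu'C : u' ∈ C0 A τ F := mem_C0_of_mem_B0_VV A hτ hgen hq
      ((VV A τ F).mul_mem (C0_le_VV A τ F (evE_mem_C0 A τ F q)) hu)
    have hT : ∀ j, ∃ T : (↥A)[X], evL A τ Sβ * Algebra.trace L F (u' * g.β j) = evL A τ T := by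
      intro j
      obtain ⟨T, hT⟩ := trace_mem_of_C0 A hτ hgen ((C0 A τ F).mul_mem hu'C (hSβmem j))
      refine ⟨T, ?_⟩
      rw [← hT, evE_apply]
      have : u' * (algebraMap L F (evL A τ Sβ) * g.β j) = evL A τ Sβ • (u' * g.β j) := by
        rw [Algebra.smul_def]; ring
      rw [this, map_smul, smul_eq_mul]
    choose T hT using hT
    refine ⟨fun i => ∑ j, T j * N j i * E j i, ?_⟩
    have e1 : u' = ∑ j, Algebra.trace L F (u' * g.β j) • d j := by
      conv_lhs => rw [← d.sum_repr u']
      refine Finset.sum_congr rfl fun j _ => ?_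
      rw [hddef, LinearMap.BilinForm.dualBasis_repr_apply, Algebra.traceForm_apply]
    have e2 : ∀ j, d j = ∑ i, g.β.repr (d j) i • g.β i := fun j => (g.β.sum_repr (d j)).symm
    have e3 : evE A τ F (Dtot * Sβ * q) * u = evE A τ F (Dtot * Sβ) * u' := by
      rw [hu', map_mul (evE A τ F) (Dtot * Sβ) q, mul_assoc]
    rw [e3]
    conv_lhs => rw [e1]
    rw [Finset.mul_sum]
    have e4 : ∀ j, evE A τ F (Dtot * Sβ) * (Algebra.trace L F (u' * g.β j) • d j) =
        ∑ i, evE A τ F (T j * N j i * E j i) * g.β i := by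
      intro j
      conv_lhs => rw [e2 j]
      rw [Finset.smul_sum, Finset.mul_sum]
      refine Finset.sum_congr rfl fun i _ => ?_
      rw [smul_smul, Algebra.smul_def, evE_apply, evE_apply, ← mul_assoc, ← map_mul]
      congr 2
      rw [map_mul (evL A τ) Dtot Sβ, map_mul (evL A τ) (T j * N j i) (E j i),
        map_mul (evL A τ) (T j) (N j i), ← hT j, ← hND j i, ← hE j i,
        map_mul (evL A τ) (D j i) (E j i)]
      ring
    rw [Finset.sum_congr rfl (fun j _ => e4 j), Finset.sum_comm]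
    refine Finset.sum_congr rfl fun i _ => ?_
    rw [map_sum, Finset.sum_mul]

/-- [S19/G-B0] -/
theorem mem_B0_of_reg [IsAlgClosed K] [CharZero K] [FiniteDimensional L F]
    (hτ : Transcendental K τ) (hgen : IsGen K τ) (z : F)
    (hz : ∀ P : Place K F, algebraMap L F τ ∈ P.toValuationSubring → z ∈ P.toValuationSubring) :
    z ∈ B0 K τ F := by
  have : IsDedekindDomain ↥(B0 K τ F) := isDedekindDomain_B0 hτ hgen
  have : IsFractionRing ↥(B0 K τ F) F := isFractionRing_B0 hτ hgen
  have h1 : z ∈ (algebraMap ↥(B0 K τ F) F).range := by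
    apply HeightOneSpectrum.mem_integers_of_valuation_le_one
    intro w
    have h2 : algebraMap L F τ ∈ (Glue.ofH K F w).toValuationSubring :=
      Glue.mem_ofH (K := K) (F := F) w
        (⟨algebraMap L F τ, C0_le_B0 (⊤ : ValuationSubring K) (tau_mem_C0 _ τ F)⟩ : ↥(B0 K τ F))
    have h3 := hz _ h2
    exact (Valuation.mem_valuationSubring_iff _ _).mp h3
  obtain ⟨b, rfl⟩ := h1
  exact b.2

theorem q_evE_mem (P : Place K F) (hP : algebraMap L F τ ∈ P.toValuationSubring) (q : (↥A)[X]) :
    evE A τ F q ∈ P.toValuationSubring := by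
  induction q using Polynomial.induction_on' with
  | add p q hp hq => rw [map_add]; exact add_mem hp hq
  | monomial n a =>
    rw [← C_mul_X_pow_eq_monomial, map_mul, map_pow, evE_C_eq]
    have hX : evE A τ F X = algebraMap L F τ := by rw [evE_apply, evL_X]
    rw [hX]
    exact mul_mem (P.algebraMap_mem' _) (pow_mem hP n)

/-- [S19/G-Q] clearing the poles -/
theorem exists_q [IsAlgClosed K] [CharZero K] [FiniteDimensional L F]
    (hτ : Transcendental K τ) (hgen : IsGen K τ) (u : F) (S : Finset (Place K F)) (c : Place K F → A)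
    (hc : ∀ P ∈ S, Glue.Val P (algebraMap L F τ) (c P : K))
    (hu : ∀ P : Place K F, P ∉ S → u ∈ P.toValuationSubring) :
    ∃ q : (↥A)[X], evE A τ F q * u ∈ B0 K τ F ∧
      ∀ a : A, (∀ P ∈ S, IsUnit (a - c P)) → IsUnit (q.eval a) := by
  classical
  refine ⟨∏ P ∈ S, (X - C (c P)) ^ (- P.ord u).toNat, ?_, ?_⟩
  · apply mem_B0_of_reg hτ hgen
    intro P hP
    by_cases hPS : P ∈ S
    · rcases eq_or_ne u 0 with rfl | hu0
      · rw [mul_zero]; exact zero_mem _
      rw [← Finset.mul_prod_erase S _ hPS, map_mul, mul_assoc, mul_comm, mul_assoc]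
      refine mul_mem (q_evE_mem P hP _) ?_
      have hX : evE A τ F (X - C (c P)) = algebraMap L F τ - algebraMap K F (c P : K) := by
        rw [map_sub, evE_C_eq, evE_apply, evL_X]
      rw [map_pow, hX]
      have hv := (bridge_van_iff P _).1 (hc P hPS)
      rcases hv with h0 | hpos
      · exfalso
        -- τ would be algebraic
        have h1 : algebraMap L F τ = algebraMap L F (algebraMap K L (c P : K)) := by
          rw [← IsScalarTower.algebraMap_apply]; exact sub_eq_zero.1 h0
        have h2 : τ = algebraMap K L (c P : K) := (algebraMap L F).injective h1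
        exact hτ (h2 ▸ isAlgebraic_algebraMap _)
      · have hne : algebraMap L F τ - algebraMap K F (c P : K) ≠ 0 := by
          intro h0
          rw [h0, Place.ord_zero] at hpos
          exact lt_irrefl _ hpos
        rw [S24.mem_iff_ord_nonneg, P.ord_mul hu0 (pow_ne_zero _ hne), ← zpow_natCast, P.ord_zpow]
        have h3 : (-P.ord u) ≤ ((-P.ord u).toNat : ℤ) := Int.self_le_toNat _
        have h4 : (0 : ℤ) ≤ ((-P.ord u).toNat : ℤ) := Int.natCast_nonneg _
        nlinarith
    · exact mul_mem (q_evE_mem P hP _) (hu P hPS)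
  · intro a ha
    rw [eval_prod]
    have : ∀ P ∈ S, IsUnit (((X - C (c P)) ^ (- P.ord u).toNat).eval a) := by
      intro P hP
      rw [eval_pow, eval_sub, eval_X, eval_C]
      exact (ha P hP).pow _
    exact (Finset.prod_induction _ IsUnit (fun _ _ h1 h2 => h1.mul h2) isUnit_one this)

end Fermat.Agent.S19
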