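import Fermat.Agent.S19.G.ValAux
import Fermat.Agent.S19.G.Rep
import Fermat.Agent.S19.W.Eval

/-!
# S19, layer G : the keys [S19/G-ORB], [S19/G-EV1], [S19/G-EV2] with unpacked hypotheses
(`GalData`, `RelGood` are defined in `G/Asm.lean`, which imports this file.)
-/

set_option autoImplicit false
set_option linter.unusedSectionVars false

noncomputable section

namespace Fermat.Agent.S19

open Polynomial Fermat.Agent.S18.KL Fermat.Agent.S37 Fermat.Agent.S27 AlgebraicCurve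

variable {A : ValuationSubring Qb}

theorem evaux_orbit_poly (c : A) : ∃ θc : (↥A)[X], θc.Monic ∧
    ∀ c' : A, IsUnit (θc.eval c') → IsUnit (c' - c) ∧ ∀ ρ : GQ, ρ (c : Qb) ≠ (c' : Qb) := by
  classical
  set S : Finset A := Finset.subtype (· ∈ A) ((minpoly ℚ (c : Qb)).aroots Qb).toFinset with hS
  have hint : IsIntegral ℚ (c : Qb) :=
    ((AlgebraicClosure.isAlgebraic ℚ).isAlgebraic (c : Qb)).isIntegral
  have hmem : ∀ z : A, z ∈ S ↔ aeval (z : Qb) (minpoly ℚ (c : Qb)) = 0 := by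
    intro z
    rw [hS, Finset.mem_subtype, Multiset.mem_toFinset, mem_aroots]
    exact and_iff_right (minpoly.ne_zero hint)
  refine ⟨∏ z ∈ S, (X - C z), monic_prod_of_monic _ _ fun z _ => monic_X_sub_C z, ?_⟩
  intro c' hu
  rw [eval_prod] at hu
  have hfac : ∀ z ∈ S, IsUnit (c' - z) := by
    intro z hz
    have := isUnit_of_dvd_unit (Finset.dvd_prod_of_mem (fun z => eval c' (X - C z)) hz) hu
    simpa using this
  refine ⟨hfac c ((hmem c).2 (minpoly.aeval ℚ _)), fun ρ hρ => ?_⟩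
  have h1 : c' ∈ S := by
    rw [hmem, ← hρ, aeval_algHom_apply, minpoly.aeval, map_zero]
  have := hfac c' h1
  rw [sub_self] at this
  exact not_isUnit_zero this

theorem evaux_zpow {G G' : GQ → Qb} (h : GCfun A G) (h' : GCfun A G') (hG : ∀ ρ, G' ρ = (G ρ)⁻¹)
    (k : ℤ) : GCfun A (fun ρ => G ρ ^ k) := by
  rcases k with m | m
  · exact (h.pow m).congr fun ρ => by simp
  · exact (h'.pow (m + 1)).congr fun ρ => by rw [zpow_negSucc, hG, inv_pow]

variable {L : Type*} [Field L] [Algebra Qb L] {τ : L}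
variable {F : Type*} [Field F] [Algebra L F] [Algebra Qb F] [IsScalarTower Qb L F]
variable {ι : Type*} [Fintype ι]

theorem evaux_evalD_smul (u : F) (g : SemilinearAut Qb F) (D : Divisor Qb F) :
    evalD u (g • D) = ∏ Q ∈ D.support, val (g • Q) u ^ D Q := by
  classical
  have hs : (g • D).support ⊆ D.support.image (g • ·) := by
    rw [SemilinearAut.divisor_smul_def]
    exact Finsupp.mapDomain_support
  rw [evalD_eq_prod _ _ hs, Finset.prod_image fun a _ b _ hab => MulAction.injective g hab]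
  refine Finset.prod_congr rfl fun P _ => ?_
  rw [SemilinearAut.divisor_smul_apply_smul]

/-- the representation of a function whose poles lie in a finite set of good places -/
theorem evaux_rep [FiniteDimensional L F]
    (hτ : Transcendental Qb τ) (hgen : IsGen Qb τ) {β : ι → F} (θ₀ : (↥A)[X])
    (hrep : ∀ u ∈ VV A τ F, ∀ q : (↥A)[X], evE A τ F q * u ∈ B0 Qb τ F →
      ∃ p : ι → (↥A)[X], evE A τ F (θ₀ * q) * u = ∑ i, evE A τ F (p i) * β i)
    (S : Finset (Place Qb F)) (gS : ∀ P ∈ S, GoodAt A (algebraMap L F τ) θ₀ P)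
    (w : F) (hw : w ∈ VV A τ F) (hpole : ∀ P : Place Qb F, P ∉ S → w ∈ P.toValuationSubring) :
    ∃ (θq : (↥A)[X]) (p : ι → (↥A)[X]), evE A τ F θq * w = ∑ i, evE A τ F (p i) * β i ∧
      ∀ c : A, IsUnit (θ₀.eval c) →
        (∀ P ∈ S, ∀ cP : A, Glue.Val P (algebraMap L F τ) (cP : Qb) → IsUnit (c - cP)) →
          IsUnit (θq.eval c) := by
  classical
  let c : Place Qb F → A := fun P => if h : P ∈ S then (gS P h).choose else 0
  have hc : ∀ P ∈ S, Glue.Val P (algebraMap L F τ) (c P : Qb) := by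
    intro P hP
    simp only [c, dif_pos hP]
    exact (gS P hP).choose_spec.1
  obtain ⟨q, hq1, hq2⟩ := exists_q hτ hgen w S c hc hpole
  obtain ⟨p, hp⟩ := hrep w hw q hq1
  refine ⟨θ₀ * q, p, hp, fun c' h0 h1 => ?_⟩
  rw [eval_mul]
  exact h0.mul (hq2 c' fun P hP => h1 P hP (c P) (hc P hP))

theorem evaux_mem_of_notMem {n : ℕ} (a : TD Qb F n) {P : Place Qb F} (hP : P ∉ a.D.support) :
    P.ord a.u = 0 := by
  rw [a.ord_u, Finsupp.notMem_support_iff.1 hP, mul_zero]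

theorem evaux_I [FiniteDimensional L F] (hF : IsFF Qb F)
    (hτ : Transcendental Qb τ) (hgen : IsGen Qb τ) {β : ι → F} {gal : GQ →* SemilinearAut Qb F}
    (hbase : ∀ (ρ : GQ) (a : Qb), SemilinearAut.baseAut (gal ρ) a = ρ a)
    (htau : ∀ ρ : GQ, gal ρ • algebraMap L F τ = algebraMap L F τ)
    (hbeta : ∀ (ρ : GQ) (i : ι), gal ρ • β i = β i) (θ₀ : (↥A)[X])
    (hβ : ∀ (i : ι) (P : Place Qb F), GoodAt A (algebraMap L F τ) θ₀ P →
      ∃ b : A, Glue.Val P (β i) (b : Qb))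
    (hrep : ∀ u ∈ VV A τ F, ∀ q : (↥A)[X], evE A τ F q * u ∈ B0 Qb τ F →
      ∃ p : ι → (↥A)[X], evE A τ F (θ₀ * q) * u = ∑ i, evE A τ F (p i) * β i)
    {n : ℕ} (a y : TD Qb F n)
    (ga : ∀ P ∈ a.D.support, GoodAt A (algebraMap L F τ) θ₀ P)
    (gy : ∀ Q ∈ y.D.support, GoodAt A (algebraMap L F τ) θ₀ Q)
    (sep : ∀ P ∈ a.D.support, ∀ Q ∈ y.D.support, ∀ cP cQ : A,
      Glue.Val P (algebraMap L F τ) (cP : Qb) → Glue.Val Q (algebraMap L F τ) (cQ : Qb) →
        IsUnit (cP - cQ))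
    (disj : ∀ ρ : GQ, ∀ Q ∈ y.D.support, gal ρ • Q ∉ a.D.support)
    (au : a.u ∈ VV A τ F ∧ a.u⁻¹ ∈ VV A τ F) :
    GCfun A (fun ρ => evalD a.u (gal ρ • y.D)) := by
  have key : ∀ w ∈ VV A τ F, (∀ P : Place Qb F, P ∉ a.D.support → w ∈ P.toValuationSubring) →
      ∀ Q ∈ y.D.support, GCfun A (fun ρ => val (gal ρ • Q) w) := by
    intro w hw hpole Q hQ
    obtain ⟨θq, p, hid, hunit⟩ := evaux_rep hτ hgen θ₀ hrep a.D.support ga w hw hpole
    obtain ⟨cQ, hcQ, huQ⟩ := gy Q hQ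
    choose b hb using fun i => hβ i Q (gy Q hQ)
    refine valaux_I hF hbase htau hbeta θq p w hid Q cQ hcQ (hunit cQ huQ fun P hP cP hcP => ?_)
      b hb fun ρ => hpole _ (disj ρ Q hQ)
    have := (sep P hP Q hQ cP cQ hcP hcQ).neg
    rwa [neg_sub] at this
  have h1 : ∀ P : Place Qb F, P ∉ a.D.support → a.u ∈ P.toValuationSubring := fun P hP =>
    (S24.mem_iff_ord_nonneg P).2 (evaux_mem_of_notMem a hP).ge
  have h2 : ∀ P : Place Qb F, P ∉ a.D.support → a.u⁻¹ ∈ P.toValuationSubring := fun P hP =>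
    (S24.mem_iff_ord_nonneg P).2 (by rw [Place.ord_inv, evaux_mem_of_notMem a hP, neg_zero])
  refine (GCfun.prod y.D.support (fun Q ρ => val (gal ρ • Q) a.u ^ y.D Q) fun Q hQ => ?_).congr
    fun ρ => (evaux_evalD_smul a.u (gal ρ) y.D).symm
  exact evaux_zpow (key _ au.1 h1 Q hQ) (key _ au.2 h2 Q hQ)
    (fun ρ => val_inv hF (evaux_mem_of_notMem a (disj ρ Q hQ)) a.u_ne) _

theorem evaux_II [FiniteDimensional L F] (hF : IsFF Qb F)
    (hτ : Transcendental Qb τ) (hgen : IsGen Qb τ) {β : ι → F} {gal : GQ →* SemilinearAut Qb F}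
    (hbase : ∀ (ρ : GQ) (a : Qb), SemilinearAut.baseAut (gal ρ) a = ρ a)
    (htau : ∀ ρ : GQ, gal ρ • algebraMap L F τ = algebraMap L F τ)
    (hbeta : ∀ (ρ : GQ) (i : ι), gal ρ • β i = β i) (θ₀ : (↥A)[X])
    (hβ : ∀ (i : ι) (P : Place Qb F), GoodAt A (algebraMap L F τ) θ₀ P →
      ∃ b : A, Glue.Val P (β i) (b : Qb))
    (hrep : ∀ u ∈ VV A τ F, ∀ q : (↥A)[X], evE A τ F q * u ∈ B0 Qb τ F →
      ∃ p : ι → (↥A)[X], evE A τ F (θ₀ * q) * u = ∑ i, evE A τ F (p i) * β i)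
    {n : ℕ} (a y : TD Qb F n)
    (ga : ∀ P ∈ a.D.support, GoodAt A (algebraMap L F τ) θ₀ P)
    (gy : ∀ Q ∈ y.D.support, GoodAt A (algebraMap L F τ) θ₀ Q)
    (sep : ∀ P ∈ a.D.support, ∀ Q ∈ y.D.support, ∀ cP cQ : A,
      Glue.Val P (algebraMap L F τ) (cP : Qb) → Glue.Val Q (algebraMap L F τ) (cQ : Qb) →
        IsUnit (cP - cQ))
    (disj : ∀ ρ : GQ, ∀ Q ∈ y.D.support, gal ρ • Q ∉ a.D.support)
    (yu : y.u ∈ VV A τ F ∧ y.u⁻¹ ∈ VV A τ F) :
    GCfun A (fun ρ => (evalD (gal ρ • y.u) a.D)⁻¹) := by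
  have hdisj : ∀ ρ : GQ, ∀ P ∈ a.D.support, (gal ρ)⁻¹ • P ∉ y.D.support := by
    intro ρ P hP hcon
    have := disj ρ _ hcon
    rw [smul_inv_smul] at this
    exact this hP
  have key : ∀ w ∈ VV A τ F, (∀ P : Place Qb F, P ∉ y.D.support → w ∈ P.toValuationSubring) →
      ∀ P ∈ a.D.support, GCfun A (fun ρ => val P (gal ρ • w)) := by
    intro w hw hpole P hP
    obtain ⟨θq, p, hid, hunit⟩ := evaux_rep hτ hgen θ₀ hrep y.D.support gy w hw hpole
    obtain ⟨cP, hcP, huP⟩ := ga P hP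
    choose b hb using fun i => hβ i P (ga P hP)
    refine valaux_II hF hbase htau hbeta θq p w hid P cP hcP
      (hunit cP huP fun Q hQ cQ hcQ => sep P hP Q hQ cP cQ hcP hcQ) b hb fun ρ => ?_
    have h1 := hpole _ (hdisj ρ P hP)
    rw [S24.mem_iff_ord_nonneg, ← Fermat.Agent.S27.L.ord_smul'] at h1
    exact reg_iff.2 h1
  have h1 : ∀ P : Place Qb F, P ∉ y.D.support → y.u ∈ P.toValuationSubring := fun P hP =>
    (S24.mem_iff_ord_nonneg P).2 (evaux_mem_of_notMem y hP).ge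
  have h2 : ∀ P : Place Qb F, P ∉ y.D.support → y.u⁻¹ ∈ P.toValuationSubring := fun P hP =>
    (S24.mem_iff_ord_nonneg P).2 (by rw [Place.ord_inv, evaux_mem_of_notMem y hP, neg_zero])
  refine (GCfun.prod a.D.support (fun P ρ => val P (gal ρ • y.u) ^ (-(a.D P))) fun P hP => ?_).congr
    fun ρ => ?_
  · refine evaux_zpow (key _ yu.1 h1 P hP) (key _ yu.2 h2 P hP) (fun ρ => ?_) _
    rw [smul_inv'']
    refine val_inv hF ?_ ?_
    · rw [Fermat.Agent.S27.L.ord_smul']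
      exact evaux_mem_of_notMem y (hdisj ρ P hP)
    · intro h0
      exact y.u_ne ((smul_eq_zero_iff_eq (gal ρ)).1 h0)
  · rw [evalD_eq_prod _ a.D (Finset.Subset.refl _), ← Finset.prod_inv_distrib]
    exact Finset.prod_congr rfl fun P _ => zpow_neg _ _

end Fermat.Agent.S19
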