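import Fermat.Agent.S19.G.ML1

/-!
# S19, layer G, keys [S19/G-ML1], [S19/G-ML2], [S19/G-ML3] : the moving lemma on the integral model

Setting and preamble: copy the first 45 lines of the proof of `S37.exists_reduction` (`S37/BrMain.lean`): they produce, for the charts
`τ` and `τ⁻¹`: `gb`, `gb'`, Dedekind instances on `Cbar A τ F`, `B0 K τ F`, ..., and
`hc : ChartCompat A (residue A) O red (CC A τ F) (rdC A τ F) (algebraMap L F τ)`, `hc'` (same for `τ⁻¹`).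

## ML1 (`ml_point`)   `θ` monic, `τ(P) = c ∈ A`.
`P = ofH w₀`, `InDisc w₀ x₀` (`Glue.exists_redC_of_val hc P c hP`).  `θ₁ := θ * (X - C c)` (monic).
`T := {x : HeightOneSpectrum (Cbar A τ F) | rdC (θ₁(τ)) ∈ x}` is finite (`rdC (θ₁(τ)) ≠ 0`: `θ₁` monic so `redP θ₁ ≠ 0`, and
`(kk A)[X] → Cbar` is injective, see `S37/BrInter.lean`, `S18/Z/Cbar.lean`; finiteness: `ChartFormula.finite_support`), `x₀ ∈ T`.
CRT in the Dedekind domain `Cbar` (`IsDedekindDomain.exists_forall_sub_mem_ideal`): `ϖb ∈ x₀ \ x₀²`, `ϖb ∉ x` for `x ∈ T \ {x₀}`.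
Lift `a₀ : CC A τ F`, `rdC a₀ = ϖb`.  `exists_pow_inv_mul_mem` (`C0 ≤ C01`) : `τ⁻ᵐ¹ a₀ ∈ C0 A τ⁻¹ F`.
`m := m₁ + 1 + 2 deg θ₁`, `H := X^(m₁+1) θ₁²` (monic of degree `m`), `κ :=` value of `a₀ + H(τ)` at `w₀` (`κ ∈ 𝔪_A` by `InDisc`, since
`rdC (a₀ + H(τ)) ∈ x₀`), `a := a₀ + H(τ) - κ`, `h := 1 + X^(m - deg θ₁) θ₁` (monic of degree `m`), `f := a / h(τ)`.
* `rdC a = ϖb + rdC H(τ) ∈ x₀ \ x₀²`, `a ∈ w₀`: `ChartFormula.ordH_unif` gives `ord_{w₀} a = 1`, `ChartFormula.eq_of_mem`: no other zero in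
  the disc of `x₀`.  `h(c) = 1 + c^.. θ₁(c) = 1`: `ord_P h(τ) = 0`.  So `ord_P f = 1`.
* `P' ≠ P` with `τ(P') = c' ∈ A`, `θ(c')` NOT a unit: `P' = ofH w`, `InDisc w x`, `rdC θ₁(τ) ∈ x` so `x ∈ T`; if `x = x₀`: `a ∉ w`; if `x ≠ x₀`:
  `rdC a ∉ x` so the value of `a` at `w` is a unit; `h(c') ∈ 1 + 𝔪`.  So `ord_{P'} f = 0`.
* `P'` without a value of `τ` in `A`: `τ⁻¹` has a value `t' ∈ 𝔪_A` at `P'` (see the proof of `Glue.exists_placeReduction`, `Glue.exists_val`,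
  `Glue.exists_inv_of_notMem`), chart `τ⁻¹`: `P' = ofH w'`, `InDisc w' x'`, `rdC' (τ⁻¹) ∈ x'`.  `a τ⁻ᵐ = τ⁻¹ (τ⁻ᵐ¹ a₀) τ^(-2 deg θ₁) + H.reverse(τ⁻¹) - κ τ⁻ᵐ`
  lies in `C0 A τ⁻¹ F` and has value in `1 + 𝔪_A` at `P'` (every term except the constant term `1` of `H.reverse` is a multiple of `τ⁻¹`
  by an element of `C0 A τ⁻¹ F`, whose values at `w'` are in `A`); the same for `h(τ) τ⁻ᵐ = h.reverse(τ⁻¹)`.  So `ord_{P'} f = 0`.

## ML2 (`ml_place`)  `exists_factor` (`S18/Z/Gauss.lean`): `θ = C a * d0 * d1`, `d0` monic, `redP d1 = 1`, so `IsUnit (d0.eval c) → IsUnit (θ.eval c)`.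
If `τ(P) ∈ A`: ML1 with `d0`.  Otherwise `τ⁻¹(P) ∈ 𝔪_A ⊂ A`: ML1 for `τ⁻¹` (hypotheses `g.inv hτ`, `hbr.inv hτ`, `h.inv hτ`, `transcendental_inv'`, `isGen_inv`,
as in `exists_reduction`) and `θ' := X * d0'`, `d0'` the monic factor of `θ.reverse` (`redP_reverse_ne_zero`):
`GoodAt A τ⁻¹ θ' P' → GoodAt A τ θ P'`: `c'` is a unit, `τ(P') = c'⁻¹` (`Glue.Val.inv`), `θ(c'⁻¹) = c'^(-deg θ) θ.reverse(c')`.

## ML3 (`ml_div`)  induction on `D` (`Finsupp.induction`): `f = ∏ f_P ^ (- D P)`.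
-/

set_option autoImplicit false
set_option linter.unusedSectionVars false

noncomputable section

namespace Fermat.Agent.S19

open Polynomial Fermat.Agent.S18.KL Fermat.Agent.S37 IsDedekindDomain AlgebraicCurve

variable {K : Type*} [Field K] {A : ValuationSubring K}
variable {L : Type*} [Field L] [Algebra K L] {τ : L}
variable {F : Type*} [Field F] [Algebra L F] [Algebra K F] [IsScalarTower K L F]
variable {Ft : Type*} [Field Ft] [Algebra (kk A) Ft] {O : Subring F} {red : O →+* Ft}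

/-- [S19/G-ML1] -/
theorem ml_point [IsAlgClosed K] [CharZero K] [FiniteDimensional L F] (hA : Arch A)
    (hτ : Transcendental K τ) (hgen : IsGen K τ) {ι : Type*} [Fintype ι] (g : GoodRed A τ F ι)
    (c0 : A) (hc0 : IsUnit c0) (hbr : Br K τ F (c0 : K)) (h : RedData A τ F O red)
    (θ : (↥A)[X]) (hθ : θ.Monic) (P : Place K F) (c : A)
    (hP : Glue.Val P (algebraMap L F τ) (c : K)) :
    ∃ f : F, f ≠ 0 ∧ P.ord f = 1 ∧
      ∀ P' : Place K F, P' ≠ P → P'.ord f ≠ 0 → GoodAt A (algebraMap L F τ) θ P' :=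
  ml1_point hA hτ hgen g c0 hc0 hbr h θ hθ P c hP

theorem ml2_residue_eval (p : (↥A)[X]) (c : A) :
    IsLocalRing.residue A (p.eval c) = (redP A p).eval (IsLocalRing.residue A c) := by
  rw [redP_apply, eval_map, eval₂_at_apply]

theorem ml2_isUnit_of_factor {θ d0 d1 : (↥A)[X]} {a : A} (ha : IsUnit a) (hθ : θ = C a * d0 * d1)
    (hd1 : redP A d1 = 1) {c : A} (h : IsUnit (d0.eval c)) : IsUnit (θ.eval c) := by
  rw [hθ, eval_mul, eval_mul, eval_C]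
  refine (ha.mul h).mul ?_
  by_contra hcon
  have h1 : IsLocalRing.residue A (d1.eval c) = 0 :=
    (IsLocalRing.residue_eq_zero_iff _).2 ((IsLocalRing.mem_maximalIdeal _).2 hcon)
  rw [ml2_residue_eval, hd1, eval_one] at h1
  exact one_ne_zero h1

theorem ml2_dich [IsAlgClosed K] [CharZero K] [FiniteDimensional L F]
    (hτ : Transcendental K τ) (hgen : IsGen K τ) (P : Place K F)
    (hP : ¬ ∃ a : A, Glue.Val P (algebraMap L F τ) (a : K)) :
    ∃ a : A, Glue.Val P (algebraMap L F τ)⁻¹ (a : K) := by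
  by_cases htP : algebraMap L F τ ∈ P.toValuationSubring
  · have : IsDedekindDomain ↥(B0 K τ F) := isDedekindDomain_B0 hτ hgen
    have : IsFractionRing ↥(B0 K τ F) F := isFractionRing_B0 hτ hgen
    obtain ⟨w, rfl⟩ := S24.exists_heightOneSpectrum_of_le (R := ↥(B0 K τ F)) P (int_B0 P htP)
    obtain ⟨c, hc⟩ := resK_B0 hτ hgen w
      (⟨algebraMap L F τ, C0_le_B0 A (tau_mem_C0 A τ F)⟩ : ↥(B0 K τ F))
    have hc' : Glue.Val (Glue.ofH K F w) (algebraMap L F τ) c :=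
      (Glue.val_ofH_iff (K := K) (F := F) w _ _).mpr hc
    have hcA : c ∉ A := fun h => hP ⟨⟨c, h⟩, hc'⟩
    have hc0 : c ≠ 0 := fun h => hcA (h ▸ A.zero_mem)
    exact ⟨⟨c⁻¹, (A.mem_or_inv_mem c).resolve_left hcA⟩, hc'.inv hc0⟩
  · refine ⟨0, ?_⟩
    unfold Glue.Val
    rw [ZeroMemClass.coe_zero, map_zero, sub_zero]
    exact Glue.van_inv_of_notMem htP

/-- [S19/G-ML2] -/
theorem ml_place [IsAlgClosed K] [CharZero K] [FiniteDimensional L F] (hA : Arch A)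
    (hτ : Transcendental K τ) (hgen : IsGen K τ) {ι : Type*} [Fintype ι] (g : GoodRed A τ F ι)
    (c0 : A) (hc0 : IsUnit c0) (hbr : Br K τ F (c0 : K)) (h : RedData A τ F O red)
    (θ : (↥A)[X]) (hθ : redP A θ ≠ 0) (P : Place K F) :
    ∃ f : F, f ≠ 0 ∧ P.ord f = 1 ∧
      ∀ P' : Place K F, P' ≠ P → P'.ord f ≠ 0 → GoodAt A (algebraMap L F τ) θ P' := by
  by_cases hP : ∃ a : A, Glue.Val P (algebraMap L F τ) (a : K)
  · obtain ⟨c, hc⟩ := hP
    obtain ⟨a, d0, d1, ha, hfac, hd0, hd1⟩ := exists_factor A θ hθ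
    obtain ⟨f, hf0, hf1, hf⟩ := ml_point hA hτ hgen g c0 hc0 hbr h d0 hd0 P c hc
    refine ⟨f, hf0, hf1, fun P' hne hord => ?_⟩
    obtain ⟨c', hc', hu⟩ := hf P' hne hord
    exact ⟨c', hc', ml2_isUnit_of_factor ha hfac hd1 hu⟩
  · obtain ⟨c, hc⟩ := ml2_dich hτ hgen P hP
    obtain ⟨a, d0, d1, ha, hfac, hd0, hd1⟩ := exists_factor A θ.reverse (redP_reverse_ne_zero A hθ)
    obtain ⟨c0u, rfl⟩ := hc0
    have hc0inv : (((c0u⁻¹ : Aˣ) : A) : K) = ((c0u : A) : K)⁻¹ := by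
      have : ((c0u : A) : K) * (((c0u⁻¹ : Aˣ) : A) : K) = 1 := congrArg (Subtype.val) (c0u.mul_inv)
      exact eq_inv_of_mul_eq_one_right this
    have hc2 : Glue.Val P (algebraMap L F τ⁻¹) (c : K) := by rw [map_inv₀]; exact hc
    obtain ⟨f, hf0, hf1, hf⟩ := ml_point (τ := τ⁻¹) hA (transcendental_inv' hτ) (isGen_inv hτ hgen)
      (g.inv hτ) ((c0u⁻¹ : Aˣ) : A) (c0u⁻¹).isUnit (by rw [hc0inv]; exact hbr.inv hτ) (h.inv hτ)
      (X * d0) (monic_X.mul hd0) P c hc2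
    refine ⟨f, hf0, hf1, fun P' hne hord => ?_⟩
    obtain ⟨c', hc', hu⟩ := hf P' hne hord
    rw [eval_mul, eval_X] at hu
    have hu1 : IsUnit c' := isUnit_of_mul_isUnit_left hu
    have hu2 : IsUnit (d0.eval c') := isUnit_of_mul_isUnit_right hu
    have hu3 : IsUnit (θ.reverse.eval c') := ml2_isUnit_of_factor ha hfac hd1 hu2
    obtain ⟨v, rfl⟩ := hu1
    have hvinv : (((v⁻¹ : Aˣ) : A) : K) = ((v : A) : K)⁻¹ := by
      have : ((v : A) : K) * (((v⁻¹ : Aˣ) : A) : K) = 1 := congrArg (Subtype.val) (v.mul_inv)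
      exact eq_inv_of_mul_eq_one_right this
    have hv0 : ((v : A) : K) ≠ 0 := fun h0 => v.ne_zero (Subtype.ext h0)
    refine ⟨((v⁻¹ : Aˣ) : A), ?_, ?_⟩
    · rw [hvinv]
      have := hc'.inv hv0
      rwa [map_inv₀, inv_inv] at this
    · -- θ(v⁻¹) * v ^ natDegree θ = θ.reverse (v)
      have key : θ.reverse.eval (v : A) = (v : A) ^ θ.natDegree * θ.eval ((v⁻¹ : Aˣ) : A) := by
        let _ : Invertible ((v⁻¹ : Aˣ) : A) := ⟨(v : A), by simp, by simp⟩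
        have h3 := eval₂_reverse_mul_pow (RingHom.id A) ((v⁻¹ : Aˣ) : A) θ
        have h4 : ⅟((v⁻¹ : Aˣ) : A) = (v : A) := rfl
        rw [h4] at h3
        simp only [eval₂_id] at h3
        rw [← h3, mul_comm, mul_assoc, ← mul_pow]
        simp
      rw [key] at hu3
      exact isUnit_of_mul_isUnit_right hu3

/-- [S19/G-ML3] **the moving lemma** -/
theorem ml_div [IsAlgClosed K] [CharZero K] [FiniteDimensional L F] (hA : Arch A)
    (hτ : Transcendental K τ) (hgen : IsGen K τ) {ι : Type*} [Fintype ι] (g : GoodRed A τ F ι)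
    (c0 : A) (hc0 : IsUnit c0) (hbr : Br K τ F (c0 : K)) (h : RedData A τ F O red)
    (θ : (↥A)[X]) (hθ : redP A θ ≠ 0) (D : Divisor K F) :
    ∃ f : F, f ≠ 0 ∧
      ∀ P : Place K F, D P + P.ord f ≠ 0 → GoodAt A (algebraMap L F τ) θ P := by
  classical
  induction D using Finsupp.induction with
  | zero => exact ⟨1, one_ne_zero, fun P hP => absurd (by simp) hP⟩
  | single_add P₀ n D' _ _ ih =>
    obtain ⟨f', hf'0, hf'⟩ := ih
    obtain ⟨f₀, hf₀0, hf₀1, hf₀⟩ := ml_place hA hτ hgen g c0 hc0 hbr h θ hθ P₀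
    refine ⟨f' * f₀ ^ (-n), mul_ne_zero hf'0 (zpow_ne_zero _ hf₀0), fun P hP => ?_⟩
    rw [P.ord_mul hf'0 (zpow_ne_zero _ hf₀0), P.ord_zpow, Finsupp.add_apply] at hP
    by_cases hPP : P = P₀
    · subst hPP
      rw [Finsupp.single_eq_same, hf₀1] at hP
      exact hf' P (fun h0 => hP (by linarith))
    · rw [Finsupp.single_eq_of_ne (by exact hPP)] at hP
      by_cases h1 : P.ord f₀ = 0
      · rw [h1] at hP
        exact hf' P (fun h0 => hP (by linarith))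
      · exact hf₀ P hPP h1

end Fermat.Agent.S19
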