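import Fermat.Agent.S19.Defs
import Fermat.Agent.S37.BrMain

/-!
# S19, layer G : definitions.   Blueprint: briefing `S19-BLUEPRINT-G`.

Abstract setting of `S37/BrMain.lean` (`exists_reduction`): `K` alg. closed char. 0, `A` a rank one valuation subring, `L = K(τ)`,
`F / L` finite, `g : GoodRed A τ F ι`, `Br`, `RedData`.

`GoodAt A t θ P` : the function `t` has a value `c ∈ A` at the place `P` and `θ(c)` is a unit of `A`.
-/

set_option autoImplicit false

noncomputable section

namespace Fermat.Agent.S19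

open Polynomial AlgebraicCurve

variable {K : Type*} [Field K] (A : ValuationSubring K) {F : Type*} [Field F] [Algebra K F]

/-- `t(P) = c ∈ A` and `θ(c) ∈ Aˣ` -/
def GoodAt (t : F) (θ : (↥A)[X]) (P : Place K F) : Prop :=
  ∃ c : A, Fermat.Agent.S37.Glue.Val P t (c : K) ∧ IsUnit (θ.eval c)

variable {A}

theorem GoodAt.of_mul_left {t : F} {θ θ' : (↥A)[X]} {P : Place K F} (h : GoodAt A t (θ * θ') P) :
    GoodAt A t θ P := by
  obtain ⟨c, hc, hu⟩ := h
  rw [eval_mul] at hu
  exact ⟨c, hc, isUnit_of_mul_isUnit_left hu⟩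

theorem GoodAt.of_mul_right {t : F} {θ θ' : (↥A)[X]} {P : Place K F} (h : GoodAt A t (θ * θ') P) :
    GoodAt A t θ' P := by
  obtain ⟨c, hc, hu⟩ := h
  rw [eval_mul] at hu
  exact ⟨c, hc, isUnit_of_mul_isUnit_right hu⟩

theorem bridge_van_iff (P : Place K F) (f : F) :
    Fermat.Agent.S37.Glue.Van P f ↔ Fermat.Agent.S27.Van P f := by
  rw [Fermat.Agent.S37.Glue.van_iff, Fermat.Agent.S27.Van]
  rcases eq_or_ne f 0 with rfl | hf
  · simp
  · simp only [hf, false_or]
    rw [Fermat.Agent.S24.mem_iff_ord_nonneg, Place.ord_inv]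
    omega

/-- [S19/G-BRIDGE] the two notions of value (`S37.Glue.Val`, `S27.val`) agree -/
theorem val_iff [IsAlgClosed K] [CharZero K] (h : Fermat.Agent.S37.IsFF K F) (P : Place K F) (f : F)
    (c : K) : Fermat.Agent.S37.Glue.Val P f c ↔
      (Fermat.Agent.S27.Reg P f ∧ Fermat.Agent.S27.val P f = c) := by
  constructor
  · intro hv
    exact ⟨hv.mem, Fermat.Agent.S27.val_eq_of_van h ((bridge_van_iff P _).1 hv)⟩
  · rintro ⟨hr, rfl⟩
    exact (bridge_van_iff P _).2 (Fermat.Agent.S27.van_sub_val h hr)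

end Fermat.Agent.S19
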