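import Fermat.Agent.S19.G.GC
import Fermat.Agent.S19.G.Defs

/-!
# S19, layer G : auxiliary lemmas for the keys [S19/G-VAL1], [S19/G-VAL2]

`Glue.Val` calculus (`add`, `sum`, `pow`), the value of `evE A τ F θ` at a place where `τ` has the value `c`,
the Galois conjugate of `evE A τ F θ`.
-/

set_option autoImplicit false
set_option linter.unusedSectionVars false

noncomputable section

namespace Fermat.Agent.S19

open Polynomial Fermat.Agent.S18.KL Fermat.Agent.S37 Fermat.Agent.S27 AlgebraicCurve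

section Gen

variable {K : Type*} [Field K] {F : Type*} [Field F] [Algebra K F] {P : Place K F}

theorem valaux_add {f f' : F} {c c' : K} (h : Glue.Val P f c) (h' : Glue.Val P f' c') :
    Glue.Val P (f + f') (c + c') := by
  have : f + f' - algebraMap K F (c + c') = (f - algebraMap K F c) + (f' - algebraMap K F c') := by
    rw [map_add]; ring
  unfold Glue.Val
  rw [this]
  exact Glue.Van.add h h'

theorem valaux_zero : Glue.Val P (0 : F) 0 := by
  have := Glue.val_const (P := P) (0 : K)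
  rwa [map_zero] at this

theorem valaux_sum {ι : Type*} (s : Finset ι) (f : ι → F) (c : ι → K)
    (h : ∀ i ∈ s, Glue.Val P (f i) (c i)) : Glue.Val P (∑ i ∈ s, f i) (∑ i ∈ s, c i) := by
  classical
  induction s using Finset.induction_on with
  | empty => simpa using valaux_zero
  | insert a s ha ih =>
    rw [Finset.sum_insert ha, Finset.sum_insert ha]
    exact valaux_add (h a (Finset.mem_insert_self a s))
      (ih fun i hi => h i (Finset.mem_insert_of_mem hi))

theorem valaux_pow {f : F} {c : K} (h : Glue.Val P f c) (n : ℕ) : Glue.Val P (f ^ n) (c ^ n) := by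
  induction n with
  | zero => simpa using Glue.val_one
  | succ n ih => rw [pow_succ, pow_succ]; exact ih.mul h

/-- the value of a polynomial expression -/
theorem valaux_eval₂ {t : F} {c : K} (h : Glue.Val P t c) (θ : K[X]) :
    Glue.Val P (θ.eval₂ (algebraMap K F) t) (θ.eval c) := by
  rw [eval₂_eq_sum_range, eval_eq_sum_range]
  exact valaux_sum _ _ _ fun i _ => (Glue.val_const _).mul (valaux_pow h i)

end Gen

variable {A : ValuationSubring Qb}
variable {L : Type*} [Field L] [Algebra Qb L] {τ : L}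
variable {F : Type*} [Field F] [Algebra L F] [Algebra Qb F] [IsScalarTower Qb L F]

theorem valaux_evE (θ : (↥A)[X]) :
    evE A τ F θ = (θ.map A.subtype).eval₂ (algebraMap Qb F) (algebraMap L F τ) := by
  rw [evE_apply, evL, coe_eval₂RingHom, hom_eval₂, eval₂_map, IsScalarTower.algebraMap_eq Qb L F,
    RingHom.comp_assoc]

theorem valaux_val_evE {P : Place Qb F} {c : Qb} (h : Glue.Val P (algebraMap L F τ) c)
    (θ : (↥A)[X]) : Glue.Val P (evE A τ F θ) ((θ.map A.subtype).eval c) := by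
  rw [valaux_evE]
  exact valaux_eval₂ h _

theorem valaux_smul_evE (g : SemilinearAut Qb F) (ρ : GQ)
    (hb : ∀ a : Qb, SemilinearAut.baseAut g a = ρ a) (ht : g • algebraMap L F τ = algebraMap L F τ)
    (θ : (↥A)[X]) :
    g • evE A τ F θ =
      ((θ.map A.subtype).map (ρ : Qb →+* Qb)).eval₂ (algebraMap Qb F) (algebraMap L F τ) := by
  rw [valaux_evE, eval₂_eq_sum_range, eval₂_eq_sum_range, Finset.smul_sum,
    natDegree_map_eq_of_injective (f := (ρ : Qb →+* Qb)) ρ.injective]
  refine Finset.sum_congr rfl fun i _ => ?_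
  rw [smul_mul', smul_pow', ht, SemilinearAut.smul_algebraMap, hb, coeff_map, coeff_map, coeff_map]
  rfl

theorem valaux_coe_eval (θ : (↥A)[X]) (c : A) :
    (θ.map A.subtype).eval (c : Qb) = ((θ.eval c : A) : Qb) := by
  rw [eval_map]
  exact (hom_eval₂ θ (RingHom.id A) A.subtype c).symm ▸ by simp [eval₂_eq_eval_map]

variable {ι : Type*} [Fintype ι]

theorem valaux_I (hF : IsFF Qb F) {β : ι → F} {gal : GQ →* SemilinearAut Qb F}
    (hbase : ∀ (ρ : GQ) (a : Qb), SemilinearAut.baseAut (gal ρ) a = ρ a)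
    (htau : ∀ ρ : GQ, gal ρ • algebraMap L F τ = algebraMap L F τ)
    (hbeta : ∀ (ρ : GQ) (i : ι), gal ρ • β i = β i)
    (θq : (↥A)[X]) (p : ι → (↥A)[X]) (u : F)
    (hid : evE A τ F θq * u = ∑ i, evE A τ F (p i) * β i)
    (Q : Place Qb F) (c : A) (hc : Glue.Val Q (algebraMap L F τ) (c : Qb)) (hu : IsUnit (θq.eval c))
    (b : ι → A) (hb : ∀ i, Glue.Val Q (β i) (b i : Qb)) (hreg : ∀ ρ : GQ, Reg (gal ρ • Q) u) :
    GCfun A (fun ρ => val (gal ρ • Q) u) := by
  have h2 : (fun ρ : GQ => (θq.map A.subtype).eval (ρ (c : Qb))) ∈ Wring A := by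
    have := typeI_mem_Wring θq c (1 : A)
    simpa using this
  have h1 : (fun ρ : GQ => ∑ i, ((p i).map A.subtype).eval (ρ (c : Qb)) * ρ (b i : Qb)) ∈
      Wring A := by
    have : (fun ρ : GQ => ∑ i, ((p i).map A.subtype).eval (ρ (c : Qb)) * ρ (b i : Qb)) =
        ∑ i, (fun ρ : GQ => ((p i).map A.subtype).eval (ρ (c : Qb)) * ρ (b i : Qb)) := by
      funext ρ
      rw [Finset.sum_apply]
    rw [this]
    exact sum_mem fun i _ => typeI_mem_Wring (p i) c (b i)
  refine GCfun.of_mul_eq h1 h2 ?_ fun ρ => ?_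
  · obtain ⟨w, hw⟩ := hu
    refine ⟨w, ?_⟩
    show ((w : A) : Qb) = (θq.map A.subtype).eval ((1 : GQ) (c : Qb))
    rw [hw, AlgEquiv.one_apply, valaux_coe_eval]
  · have hc' : Glue.Val (gal ρ • Q) (algebraMap L F τ) (ρ (c : Qb)) := by
      have := Glue.val_smul (gal ρ) hc
      rwa [htau, hbase] at this
    have hb' : ∀ i, Glue.Val (gal ρ • Q) (β i) (ρ (b i : Qb)) := by
      intro i
      have := Glue.val_smul (gal ρ) (hb i)
      rwa [hbeta, hbase] at this
    have hu' : Glue.Val (gal ρ • Q) u (val (gal ρ • Q) u) := (val_iff hF _ _ _).2 ⟨hreg ρ, rfl⟩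
    have e1 := (valaux_val_evE hc' θq).mul hu'
    have e2 := valaux_sum Finset.univ _ _ fun i _ => (valaux_val_evE hc' (p i)).mul (hb' i)
    rw [hid] at e1
    exact e1.unique e2

theorem valaux_II (hF : IsFF Qb F) {β : ι → F} {gal : GQ →* SemilinearAut Qb F}
    (hbase : ∀ (ρ : GQ) (a : Qb), SemilinearAut.baseAut (gal ρ) a = ρ a)
    (htau : ∀ ρ : GQ, gal ρ • algebraMap L F τ = algebraMap L F τ)
    (hbeta : ∀ (ρ : GQ) (i : ι), gal ρ • β i = β i)
    (θq : (↥A)[X]) (p : ι → (↥A)[X]) (u : F)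
    (hid : evE A τ F θq * u = ∑ i, evE A τ F (p i) * β i)
    (P : Place Qb F) (c : A) (hc : Glue.Val P (algebraMap L F τ) (c : Qb)) (hu : IsUnit (θq.eval c))
    (b : ι → A) (hb : ∀ i, Glue.Val P (β i) (b i : Qb)) (hreg : ∀ ρ : GQ, Reg P (gal ρ • u)) :
    GCfun A (fun ρ => val P (gal ρ • u)) := by
  have h2 : (fun ρ : GQ => ((θq.map A.subtype).map (ρ : Qb →+* Qb)).eval (c : Qb)) ∈ Wring A := by
    have := typeII_mem_Wring θq c (1 : A)
    simpa using this
  have h1 : (fun ρ : GQ => ∑ i, (((p i).map A.subtype).map (ρ : Qb →+* Qb)).eval (c : Qb) *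
      (b i : Qb)) ∈ Wring A := by
    have : (fun ρ : GQ => ∑ i, (((p i).map A.subtype).map (ρ : Qb →+* Qb)).eval (c : Qb) *
        (b i : Qb)) =
        ∑ i, (fun ρ : GQ => (((p i).map A.subtype).map (ρ : Qb →+* Qb)).eval (c : Qb) *
          (b i : Qb)) := by
      funext ρ
      rw [Finset.sum_apply]
    rw [this]
    exact sum_mem fun i _ => typeII_mem_Wring (p i) c (b i)
  refine GCfun.of_mul_eq h1 h2 ?_ fun ρ => ?_
  · obtain ⟨w, hw⟩ := hu
    refine ⟨w, ?_⟩
    show ((w : A) : Qb) = ((θq.map A.subtype).map (((1 : GQ) : Qb ≃ₐ[ℚ] Qb) : Qb →+* Qb)).eval (c : Qb)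
    have h1 : (((1 : GQ) : Qb ≃ₐ[ℚ] Qb) : Qb →+* Qb) = RingHom.id Qb := by
      ext x; rfl
    rw [hw, h1, Polynomial.map_id, valaux_coe_eval]
  · have hu' : Glue.Val P (gal ρ • u) (val P (gal ρ • u)) := (val_iff hF _ _ _).2 ⟨hreg ρ, rfl⟩
    have hid' : (gal ρ • evE A τ F θq) * (gal ρ • u) = ∑ i, (gal ρ • evE A τ F (p i)) * β i := by
      have := congrArg (fun z => gal ρ • z) hid
      simp only [smul_mul', Finset.smul_sum, hbeta] at this
      exact this
    have hv : ∀ θ : (↥A)[X], Glue.Val P (gal ρ • evE A τ F θ)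
        (((θ.map A.subtype).map (ρ : Qb →+* Qb)).eval (c : Qb)) := by
      intro θ
      rw [valaux_smul_evE (gal ρ) ρ (hbase ρ) (htau ρ)]
      exact valaux_eval₂ hc _
    have e1 := (hv θq).mul hu'
    have e2 := valaux_sum Finset.univ _ _ fun i _ => (hv (p i)).mul (hb i)
    rw [hid'] at e1
    exact e1.unique e2

end Fermat.Agent.S19
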