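import Fermat.Agent.S19.G.GC
import Fermat.Agent.S19.G.ValAux
import Fermat.Agent.S19.G.EvAux
import Fermat.Agent.S19.G.ML
import Fermat.Agent.S19.G.Rep
import Fermat.Agent.S19.W.Main
import Fermat.Agent.S19.G.Datum
import Fermat.Agent.S19.ND.Rep

/-!
# S19, layer G : assembly of (GC) in the abstract setting (`K = Qb`)
Keys [S19/G-VAL1], [S19/G-VAL2], [S19/G-ORB], [S19/G-DATUM], [S19/G-EV1], [S19/G-EV2], [S19/G-ABS].

`gal : GQ →* SemilinearAut Qb F` with `GalData`: `gal ρ` induces `ρ` on `Qb` and fixes `τ` and the basis `β`.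

## VAL1 (`gc_val_I`)   evaluate `hid : θq(τ) u = ∑ p_i(τ) β_i` at the place `gal ρ • Q`:
`val (gal ρ • Q) z = ρ (val Q z)` if `gal ρ • z = z` (`S27.L.val_smul` in `S27/L/FF.lean`), `val` is a ring hom on regular elements (`S27.val_add/mul/algebraMap`),
so `val (gal ρ • Q) (evE P) = (P.map A.subtype).eval (ρ c)`.  `W2 ρ := θq(ρ c)`, `W1 ρ := ∑ i, p_i(ρ c) * ρ (b i)` (`typeI_mem_Wring`, `sum_mem`), `GCfun.of_mul_eq`.
## VAL2 (`gc_val_II`)  apply `gal ρ` to `hid`: `gal ρ • evE P = ∑ k, ρ(P_k) τ^k`; evaluate at `P`: `W2 ρ := (ρ θq)(c)`, `W1 ρ := ∑ i, (ρ p_i)(c) * b i` (`typeII_mem_Wring`).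
## ORB (`exists_orbit_poly`)  `θc := ∏ (X - C z)` over the roots `z` of `minpoly ℚ c` in `Qb` which lie in `A` (finite set; contains `c`; contains `ρ c` as soon as `ρ c ∈ A`).
A product of elements of `A` is a unit iff every factor is.
## DATUM (`exists_good_datum`)  `ml_div` for `y.D` gives `f`; `hscale` for `y.u * f ^ n` gives the constant.
## EV1, EV2, ABS: see the statements; `evalD u (gal ρ • D) = ∏_{Q ∈ D.support} val (gal ρ • Q) u ^ D Q` (`Finsupp.prod_mapDomain_index_inj`);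
for a negative exponent use `u⁻¹` (`S27.val_inv`).  For each factor: `exists_q` (poles of `a.u^{±1}` lie in `a.D.support`), `hrep`, `gc_val_I/II`, then `GCfun.pow`, `GCfun.prod`.
ABS: (1) `exists_good_datum` for `y` with `θ₀`: `y'`; `chi (y.tr (gal ρ)) x = chi (y'.tr (gal ρ)) x` by `chi_congr` (transported by `gal ρ`).
(2) `θ := θ₀ * ∏_{Q ∈ y'.D.support} θ_{c_Q}` (`exists_orbit_poly`); `exists_TD` for `x`, `exists_good_datum` with `θ`: `a` with `a.cl = x`.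
(3) `a.Disj (y'.tr (gal ρ))` for all `ρ`: `P = gal ρ • Q` ⟹ `c_P = ρ c_Q`, excluded.  (4) `chi_eq`, `wp`, EV1, EV2, `GCfun.mul`.
-/

set_option autoImplicit false
set_option linter.unusedSectionVars false

noncomputable section

namespace Fermat.Agent.S19

open Polynomial Fermat.Agent.S18.KL Fermat.Agent.S37 Fermat.Agent.S27 IsDedekindDomain AlgebraicCurve

variable {A : ValuationSubring Qb}
variable {L : Type*} [Field L] [Algebra Qb L] {τ : L}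
variable {F : Type*} [Field F] [Algebra L F] [Algebra Qb F] [IsScalarTower Qb L F]
variable {ι : Type*} [Fintype ι]

/-- the Galois action fixes `τ` and the basis -/
structure GalData (t : F) (β : ι → F) (gal : GQ →* SemilinearAut Qb F) : Prop where
  base : ∀ (ρ : GQ) (a : Qb), SemilinearAut.baseAut (gal ρ) a = ρ a
  tau : ∀ ρ : GQ, gal ρ • t = t
  beta : ∀ (ρ : GQ) (i : ι), gal ρ • β i = β i

/-- [S19/G-VAL1] -/
theorem gc_val_I (hF : IsFF Qb F) {β : ι → F} {gal : GQ →* SemilinearAut Qb F}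
    (hG : GalData (algebraMap L F τ) β gal) (θq : (↥A)[X]) (p : ι → (↥A)[X]) (u : F)
    (hid : evE A τ F θq * u = ∑ i, evE A τ F (p i) * β i)
    (Q : Place Qb F) (c : A) (hc : Glue.Val Q (algebraMap L F τ) (c : Qb)) (hu : IsUnit (θq.eval c))
    (b : ι → A) (hb : ∀ i, Glue.Val Q (β i) (b i : Qb)) (hreg : ∀ ρ : GQ, Reg (gal ρ • Q) u) :
    GCfun A (fun ρ => val (gal ρ • Q) u) :=
  valaux_I hF hG.base hG.tau hG.beta θq p u hid Q c hc hu b hb hreg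

/-- [S19/G-VAL2] -/
theorem gc_val_II (hF : IsFF Qb F) {β : ι → F} {gal : GQ →* SemilinearAut Qb F}
    (hG : GalData (algebraMap L F τ) β gal) (θq : (↥A)[X]) (p : ι → (↥A)[X]) (u : F)
    (hid : evE A τ F θq * u = ∑ i, evE A τ F (p i) * β i)
    (P : Place Qb F) (c : A) (hc : Glue.Val P (algebraMap L F τ) (c : Qb)) (hu : IsUnit (θq.eval c))
    (b : ι → A) (hb : ∀ i, Glue.Val P (β i) (b i : Qb)) (hreg : ∀ ρ : GQ, Reg P (gal ρ • u)) :
    GCfun A (fun ρ => val P (gal ρ • u)) :=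
  valaux_II hF hG.base hG.tau hG.beta θq p u hid P c hc hu b hb hreg

/-- [S19/G-ORB] -/
theorem exists_orbit_poly (c : A) : ∃ θc : (↥A)[X], θc.Monic ∧
    ∀ c' : A, IsUnit (θc.eval c') → IsUnit (c' - c) ∧ ∀ ρ : GQ, ρ (c : Qb) ≠ (c' : Qb) :=
  evaux_orbit_poly c

/-- relative good position of two data -/
structure RelGood (A : ValuationSubring Qb) (τ : L) (gal : GQ →* SemilinearAut Qb F) (θ₀ : (↥A)[X])
    {n : ℕ} (a y : TD Qb F n) : Prop where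
  ga : ∀ P ∈ a.D.support, GoodAt A (algebraMap L F τ) θ₀ P
  gy : ∀ Q ∈ y.D.support, GoodAt A (algebraMap L F τ) θ₀ Q
  sep : ∀ P ∈ a.D.support, ∀ Q ∈ y.D.support, ∀ cP cQ : A,
    Glue.Val P (algebraMap L F τ) (cP : Qb) → Glue.Val Q (algebraMap L F τ) (cQ : Qb) →
      IsUnit (cP - cQ)
  disj : ∀ ρ : GQ, ∀ Q ∈ y.D.support, gal ρ • Q ∉ a.D.support
  au : a.u ∈ VV A τ F ∧ a.u⁻¹ ∈ VV A τ F
  yu : y.u ∈ VV A τ F ∧ y.u⁻¹ ∈ VV A τ F

section Abs

variable {Ft : Type*} [Field Ft] [Algebra (kk A) Ft] {O : Subring F} {red : O →+* Ft}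

/-- [S19/G-DATUM] -/
theorem exists_good_datum [FiniteDimensional L F] (hF : IsFF Qb F) (hA : Arch A)
    (hτ : Transcendental Qb τ) (hgen : IsGen Qb τ) (g : GoodRed A τ F ι)
    (c0 : A) (hc0 : IsUnit c0) (hbr : Br Qb τ F (c0 : Qb)) (h : RedData A τ F O red)
    (hscale : ∀ u : F, u ≠ 0 → ∃ a : Qb, a ≠ 0 ∧ algebraMap Qb F a * u ∈ VV A τ F ∧
      (algebraMap Qb F a * u)⁻¹ ∈ VV A τ F)
    (θ : (↥A)[X]) (hθ : redP A θ ≠ 0) {n : ℕ} (y : TD Qb F n) :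
    ∃ (y' : TD Qb F n) (f : F) (c : Qb), f ≠ 0 ∧ c ≠ 0 ∧ (∀ P, y'.D P = y.D P + P.ord f) ∧
      y'.u = algebraMap Qb F c * y.u * f ^ n ∧
      (∀ P ∈ y'.D.support, GoodAt A (algebraMap L F τ) θ P) ∧
      y'.u ∈ VV A τ F ∧ y'.u⁻¹ ∈ VV A τ F :=
  datum_main hF hA hτ hgen g c0 hc0 hbr h hscale θ hθ y

end Abs

/-- [S19/G-EV1] -/
theorem gc_evalD_I [FiniteDimensional L F] (hF : IsFF Qb F)
    (hτ : Transcendental Qb τ) (hgen : IsGen Qb τ) {β : ι → F} {gal : GQ →* SemilinearAut Qb F}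
    (hG : GalData (algebraMap L F τ) β gal) (θ₀ : (↥A)[X])
    (hβ : ∀ (i : ι) (P : Place Qb F), GoodAt A (algebraMap L F τ) θ₀ P →
      ∃ b : A, Glue.Val P (β i) (b : Qb))
    (hrep : ∀ u ∈ VV A τ F, ∀ q : (↥A)[X], evE A τ F q * u ∈ B0 Qb τ F →
      ∃ p : ι → (↥A)[X], evE A τ F (θ₀ * q) * u = ∑ i, evE A τ F (p i) * β i)
    {n : ℕ} (hn : 0 < n) (a y : TD Qb F n) (hr : RelGood A τ gal θ₀ a y) :
    GCfun A (fun ρ => evalD a.u (gal ρ • y.D)) :=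
  evaux_I hF hτ hgen hG.base hG.tau hG.beta θ₀ hβ hrep a y hr.ga hr.gy hr.sep hr.disj hr.au

/-- [S19/G-EV2] -/
theorem gc_evalD_II [FiniteDimensional L F] (hF : IsFF Qb F)
    (hτ : Transcendental Qb τ) (hgen : IsGen Qb τ) {β : ι → F} {gal : GQ →* SemilinearAut Qb F}
    (hG : GalData (algebraMap L F τ) β gal) (θ₀ : (↥A)[X])
    (hβ : ∀ (i : ι) (P : Place Qb F), GoodAt A (algebraMap L F τ) θ₀ P →
      ∃ b : A, Glue.Val P (β i) (b : Qb))
    (hrep : ∀ u ∈ VV A τ F, ∀ q : (↥A)[X], evE A τ F q * u ∈ B0 Qb τ F →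
      ∃ p : ι → (↥A)[X], evE A τ F (θ₀ * q) * u = ∑ i, evE A τ F (p i) * β i)
    {n : ℕ} (hn : 0 < n) (a y : TD Qb F n) (hr : RelGood A τ gal θ₀ a y) :
    GCfun A (fun ρ => (evalD (gal ρ • y.u) a.D)⁻¹) :=
  evaux_II hF hτ hgen hG.base hG.tau hG.beta θ₀ hβ hrep a y hr.ga hr.gy hr.sep hr.disj hr.yu

section Abs

variable {Ft : Type*} [Field Ft] [Algebra (kk A) Ft] {O : Subring F} {red : O →+* Ft}

/-- equivalent data have the same class -/
theorem abs_cl_eq {K F : Type*} [Field K] [Field F] [Algebra K F] [IsAlgClosed K] [CharZero K]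
    (h : IsFF K F) {n : ℕ} (hn : 0 < n) (a a' : TD K F n) (f : F) (hf : f ≠ 0)
    (hD : ∀ P, a'.D P = a.D P + P.ord f) : a'.cl = a.cl := by
  have h1 : a.D ∈ Divisor.degZero (K := K) (F := F) :=
    Divisor.mem_degZero.2 (nd_degree_eq_zero h hn a.u_ne a.ord_u)
  have h2 : a'.D ∈ Divisor.degZero (K := K) (F := F) :=
    Divisor.mem_degZero.2 (nd_degree_eq_zero h hn a'.u_ne a'.ord_u)
  rw [TD.cl, TD.cl, nd_cls_of_mem h1, nd_cls_of_mem h2, ← sub_eq_zero]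
  have : Pic0.mk ⟨a'.D, h2⟩ - Pic0.mk ⟨a.D, h1⟩ = Pic0.mk (⟨a'.D, h2⟩ - ⟨a.D, h1⟩) := rfl
  rw [this, nd_mk_eq_zero_iff]
  refine ⟨f, hf, fun P => ?_⟩
  show (a'.D - a.D) P = _
  rw [Finsupp.sub_apply, hD]
  ring
theorem abs_redP_monic {p : (↥A)[X]} (hp : p.Monic) : redP A p ≠ 0 := by
  rw [redP_apply]
  exact (hp.map _).ne_zero

theorem abs_isUnit_of_prod {α : Type*} (s : Finset α) (f : α → A) (h : IsUnit (∏ i ∈ s, f i)) :
    ∀ i ∈ s, IsUnit (f i) := by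
  classical
  intro i hi
  rw [← Finset.mul_prod_erase s f hi] at h
  exact isUnit_of_mul_isUnit_left h

/-- [S19/G-ABS] **(GC) in the abstract setting** -/
theorem gc_abs [FiniteDimensional L F] (hF : IsFF Qb F) (hA : Arch A)
    (hτ : Transcendental Qb τ) (hgen : IsGen Qb τ) (g : GoodRed A τ F ι)
    (c0 : A) (hc0 : IsUnit c0) (hbr : Br Qb τ F (c0 : Qb)) (h : RedData A τ F O red)
    (hscale : ∀ u : F, u ≠ 0 → ∃ a : Qb, a ≠ 0 ∧ algebraMap Qb F a * u ∈ VV A τ F ∧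
      (algebraMap Qb F a * u)⁻¹ ∈ VV A τ F)
    {gal : GQ →* SemilinearAut Qb F} (hG : GalData (algebraMap L F τ) (fun i => g.β i) gal)
    {n : ℕ} (hn : 0 < n) (y : TD Qb F n) (x : Pic0 Qb F) (hx : n • x = 0) :
    GCfun A (fun ρ => chi (y.tr (gal ρ)) x) := by
  classical
  obtain ⟨θ₀, hθ₀, hβ, hrep⟩ := rep hτ hgen g
  obtain ⟨y', fy, cy, hfy, hcy, hyD, hyu, hygood, hyV, hyV'⟩ :=
    exists_good_datum hF hA hτ hgen g c0 hc0 hbr h hscale θ₀ hθ₀ y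
  choose! cQ hcQ hcQu using hygood
  choose θc hθcm hθc using fun c : A => exists_orbit_poly c
  set θ : (↥A)[X] := θ₀ * ∏ Q ∈ y'.D.support, θc (cQ Q) with hθdef
  have hθ : redP A θ ≠ 0 := by
    rw [hθdef, map_mul]
    exact mul_ne_zero hθ₀ (abs_redP_monic (monic_prod_of_monic _ _ (fun Q _ => hθcm _)))
  obtain ⟨a₀, ha₀cl, -⟩ := exists_TD hF hn x hx ∅
  obtain ⟨a, fa, ca, hfa, hca, haD, hau, hagood, haV, haV'⟩ :=
    exists_good_datum hF hA hτ hgen g c0 hc0 hbr h hscale θ hθ a₀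
  have hacl : a.cl = x := by rw [abs_cl_eq hF hn a₀ a fa hfa haD, ha₀cl]
  -- separation
  have hsep : ∀ P ∈ a.D.support, ∀ Q ∈ y'.D.support, ∀ cP : A,
      Glue.Val P (algebraMap L F τ) (cP : Qb) →
        IsUnit (cP - cQ Q) ∧ ∀ ρ : GQ, ρ (cQ Q : Qb) ≠ (cP : Qb) := by
    intro P hP Q hQ cP hcP
    obtain ⟨c, hc, hu⟩ := (hagood P hP).of_mul_right
    have : c = cP := Subtype.ext (hc.unique hcP)
    subst this
    rw [eval_prod] at hu
    exact hθc _ _ (abs_isUnit_of_prod _ _ hu Q hQ)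
  have hdisj0 : ∀ ρ : GQ, ∀ Q ∈ y'.D.support, gal ρ • Q ∉ a.D.support := by
    intro ρ Q hQ hmem
    obtain ⟨cP, hcP, -⟩ := hagood _ hmem
    have h1 := Glue.val_smul (gal ρ) (hcQ Q hQ)
    rw [hG.tau, hG.base] at h1
    exact (hsep _ hmem Q hQ cP hcP).2 ρ (h1.unique hcP)
  have hrel : RelGood A τ gal θ₀ a y' :=
    { ga := fun P hP => (hagood P hP).of_mul_left
      gy := fun Q hQ => ⟨cQ Q, hcQ Q hQ, hcQu Q hQ⟩
      sep := fun P hP Q hQ cP cQ' h1 h2 => by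
        have : cQ' = cQ Q := Subtype.ext (h2.unique (hcQ Q hQ))
        rw [this]
        exact (hsep P hP Q hQ cP h1).1
      disj := hdisj0
      au := ⟨haV, haV'⟩
      yu := ⟨hyV, hyV'⟩ }
  have hdisj : ∀ ρ : GQ, a.Disj (y'.tr (gal ρ)) := by
    intro ρ
    rw [TD.Disj, Finset.disjoint_left]
    intro P hP hP'
    have h1 : (gal ρ • y'.D) P ≠ 0 := Finsupp.mem_support_iff.1 hP'
    rw [SemilinearAut.divisor_smul_apply] at h1
    have h2 := hdisj0 ρ ((gal ρ)⁻¹ • P) (Finsupp.mem_support_iff.2 h1)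
    rw [smul_inv_smul] at h2
    exact h2 hP
  have hchi : ∀ ρ : GQ, chi (y.tr (gal ρ)) x =
      evalD a.u (gal ρ • y'.D) * (evalD (gal ρ • y'.u) a.D)⁻¹ := by
    intro ρ
    have hne : gal ρ • fy ≠ 0 := by
      intro h0
      apply hfy
      have h2 : (gal ρ)⁻¹ • (gal ρ • fy) = (gal ρ)⁻¹ • (0 : F) := congrArg _ h0
      rwa [inv_smul_smul, smul_zero] at h2
    have hc' : ρ cy ≠ 0 := by rw [Ne, map_eq_zero]; exact hcy
    rw [← chi_congr hF hn (y.tr (gal ρ)) (y'.tr (gal ρ)) (gal ρ • fy) hne (ρ cy) hc' ?_ ?_ x hx,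
      ← hacl, chi_eq hF hn _ a (hdisj ρ), wp, div_eq_mul_inv]
    · rfl
    · intro P
      show (gal ρ • y'.D) P = (gal ρ • y.D) P + P.ord (gal ρ • fy)
      rw [SemilinearAut.divisor_smul_apply, SemilinearAut.divisor_smul_apply, hyD]
      congr 1
      have := SemilinearAut.ord_smul (gal ρ) ((gal ρ)⁻¹ • P) fy
      rw [smul_inv_smul] at this
      exact this.symm
    · show gal ρ • y'.u = algebraMap Qb F (ρ cy) * (gal ρ • y.u) * (gal ρ • fy) ^ n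
      rw [hyu, smul_mul', smul_mul', smul_pow', SemilinearAut.smul_algebraMap, hG.base]
  exact ((gc_evalD_I hF hτ hgen hG θ₀ hβ hrep hn a y' hrel).mul
    (gc_evalD_II hF hτ hgen hG θ₀ hβ hrep hn a y' hrel)).congr (fun ρ => (hchi ρ).symm)

end Abs

end Fermat.Agent.S19
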