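import Fermat.Agent.S19.Defs

/-!
# S19, layer G, key [S19/G-GC] : calculus of `Wring A` and `GCfun A`   (Mathlib only + `S19/Defs.lean`)

All proofs are a few lines: `Subring.closure` membership (`Subring.subset_closure`, `sum_mem`, `mul_mem`, `pow_mem`),
`ρ (c ^ k) = (ρ c) ^ k`.  `W 1 ∈ A` for `W ∈ Wring A` by `Subring.closure_induction`.
`GCfun.mul`: `(W1, W2)`, `(W1', W2')` ↦ `(W1 W1', W2 W2')`.
-/

set_option autoImplicit false

noncomputable section

namespace Fermat.Agent.S19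

open Polynomial

variable {A : ValuationSubring Qb}

theorem const_mem_Wring {c : Qb} (hc : c ∈ A) : (fun _ : GQ => c) ∈ Wring A :=
  Subring.subset_closure (Or.inl ⟨c, hc, rfl⟩)

theorem orbit_mem_Wring {α : Qb} (hα : α ∈ A) : (fun ρ : GQ => ρ α) ∈ Wring A :=
  Subring.subset_closure (Or.inr ⟨α, hα, rfl⟩)

theorem Wring_apply_one_mem {W : GQ → Qb} (hW : W ∈ Wring A) : W 1 ∈ A := by
  induction hW using Subring.closure_induction with
  | mem x hx =>
    rcases hx with ⟨c, hc, rfl⟩ | ⟨α, hα, rfl⟩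
    · exact hc
    · exact hα
  | zero => exact A.zero_mem
  | one => exact A.one_mem
  | add x y _ _ hx hy => exact A.add_mem _ _ hx hy
  | neg x _ hx => exact A.neg_mem _ hx
  | mul x y _ _ hx hy => exact A.mul_mem _ _ hx hy

/-- type I : `ρ ↦ p(ρ c) * ρ b`  (`p ∈ A[X]`, `c b ∈ A`) -/
theorem typeI_mem_Wring (p : (↥A)[X]) (c b : A) :
    (fun ρ : GQ => (p.map A.subtype).eval (ρ (c : Qb)) * ρ (b : Qb)) ∈ Wring A := by
  have h1 : (fun ρ : GQ => (p.map A.subtype).eval (ρ (c : Qb))) ∈ Wring A := by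
    have : (fun ρ : GQ => (p.map A.subtype).eval (ρ (c : Qb))) =
        ∑ i ∈ Finset.range (p.natDegree + 1),
          (fun _ : GQ => ((p.coeff i : A) : Qb)) * (fun ρ : GQ => ρ (c : Qb)) ^ i := by
      funext ρ
      rw [eval_map, eval₂_eq_sum_range, Finset.sum_apply]
      rfl
    rw [this]
    exact sum_mem fun i _ => mul_mem (const_mem_Wring (p.coeff i).2)
      (pow_mem (orbit_mem_Wring c.2) i)
  exact mul_mem h1 (orbit_mem_Wring b.2)

/-- type II : `ρ ↦ (ρ p)(c) * b` -/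
theorem typeII_mem_Wring (p : (↥A)[X]) (c b : A) :
    (fun ρ : GQ => ((p.map A.subtype).map (ρ : Qb →+* Qb)).eval (c : Qb) * (b : Qb)) ∈ Wring A := by
  have h1 : (fun ρ : GQ => ((p.map A.subtype).map (ρ : Qb →+* Qb)).eval (c : Qb)) ∈ Wring A := by
    have : (fun ρ : GQ => ((p.map A.subtype).map (ρ : Qb →+* Qb)).eval (c : Qb)) =
        ∑ i ∈ Finset.range (p.natDegree + 1),
          (fun ρ : GQ => ρ ((p.coeff i : A) : Qb)) * (fun _ : GQ => (c : Qb)) ^ i := by
      funext ρ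
      rw [Polynomial.map_map, eval_map, eval₂_eq_sum_range, Finset.sum_apply]
      rfl
    rw [this]
    exact sum_mem fun i _ => mul_mem (orbit_mem_Wring (p.coeff i).2)
      (pow_mem (const_mem_Wring c.2) i)
  exact mul_mem h1 (const_mem_Wring b.2)

theorem GCfun.congr {G G' : GQ → Qb} (h : GCfun A G) (hG : ∀ ρ, G ρ = G' ρ) : GCfun A G' := by
  have : G = G' := funext hG
  rwa [← this]

theorem GCfun.one : GCfun A (fun _ => 1) :=
  ⟨1, one_mem _, 1, one_mem _, one_ne_zero, by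
    show ((1 : Qb))⁻¹ ∈ A
    rw [inv_one]; exact A.one_mem, fun ρ => by simp⟩

theorem GCfun.mul {G G' : GQ → Qb} (h : GCfun A G) (h' : GCfun A G') :
    GCfun A (fun ρ => G ρ * G' ρ) := by
  obtain ⟨W1, h1, W2, h2, h0, hi, he⟩ := h
  obtain ⟨W1', h1', W2', h2', h0', hi', he'⟩ := h'
  refine ⟨W1 * W1', mul_mem h1 h1', W2 * W2', mul_mem h2 h2', mul_ne_zero h0 h0', ?_, fun ρ => ?_⟩
  · show (W2 1 * W2' 1)⁻¹ ∈ A
    rw [mul_inv]
    exact A.mul_mem _ _ hi hi'
  · show W2 ρ * W2' ρ * (G ρ * G' ρ) = W1 ρ * W1' ρ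
    rw [← he, ← he']
    ring

theorem GCfun.pow {G : GQ → Qb} (h : GCfun A G) (n : ℕ) : GCfun A (fun ρ => G ρ ^ n) := by
  induction n with
  | zero => exact GCfun.one.congr fun ρ => (pow_zero _).symm
  | succ n ih => exact (ih.mul h).congr fun ρ => (pow_succ _ _).symm

theorem GCfun.prod {ι : Type*} (s : Finset ι) (G : ι → GQ → Qb) (h : ∀ i ∈ s, GCfun A (G i)) :
    GCfun A (fun ρ => ∏ i ∈ s, G i ρ) := by
  classical
  induction s using Finset.induction_on with
  | empty => exact GCfun.one.congr fun ρ => by simp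
  | insert a s ha ih =>
    exact ((h a (Finset.mem_insert_self a s)).mul
      (ih fun i hi => h i (Finset.mem_insert_of_mem hi))).congr fun ρ =>
        (Finset.prod_insert ha).symm

/-- the basic way to produce a `GCfun` -/
theorem GCfun.of_mul_eq {G W1 W2 : GQ → Qb} (h1 : W1 ∈ Wring A) (h2 : W2 ∈ Wring A)
    (hu : ∃ u : Aˣ, ((u : A) : Qb) = W2 1) (h : ∀ ρ, W2 ρ * G ρ = W1 ρ) : GCfun A G := by
  obtain ⟨u, hu⟩ := hu
  have hmul : ((u : A) : Qb) * (((u⁻¹ : Aˣ) : A) : Qb) = 1 := by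
    have : ((u : A) * ((u⁻¹ : Aˣ) : A) : A) = 1 := by simp
    exact_mod_cast congrArg (Subtype.val) this
  have h0 : W2 1 ≠ 0 := by
    rw [← hu]
    exact left_ne_zero_of_mul_eq_one hmul
  refine ⟨W1, h1, W2, h2, h0, ?_, h⟩
  rw [← hu, inv_eq_of_mul_eq_one_right hmul]
  exact ((u⁻¹ : Aˣ) : A).2

end Fermat.Agent.S19
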