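import Fermat.Agent.S19.G.Defs

/-!
# S19, layer G, key [S19/G-ML1] : abstract two-chart form of the moving lemma for one place
(see the header of `G/ML.lean` for the proof)
-/

set_option autoImplicit false
set_option linter.unusedSectionVars false

noncomputable section

namespace Fermat.Agent.S19

open Polynomial IsDedekindDomain AlgebraicCurve Fermat.Agent.S37 Fermat.Agent.S37.Glue

section ValCalc

variable {K : Type*} [Field K] {F : Type*} [Field F] [Algebra K F] {P : Place K F}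

theorem ml1_val_add {f f' : F} {c c' : K} (h : Val P f c) (h' : Val P f' c') :
    Val P (f + f') (c + c') := by
  have h1 : f + f' - algebraMap K F (c + c') =
      (f - algebraMap K F c) + (f' - algebraMap K F c') := by rw [map_add]; ring
  unfold Val
  rw [h1]
  exact Van.add h h'

theorem ml1_val_sub {f f' : F} {c c' : K} (h : Val P f c) (h' : Val P f' c') :
    Val P (f - f') (c - c') := by
  have h1 : f - f' - algebraMap K F (c - c') =
      (f - algebraMap K F c) - (f' - algebraMap K F c') := by rw [map_sub]; ring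
  unfold Val
  rw [h1]
  exact Van.sub h h'

theorem ml1_val_pow {f : F} {c : K} (h : Val P f c) (n : ℕ) : Val P (f ^ n) (c ^ n) := by
  induction n with
  | zero => simpa using val_one (P := P)
  | succ n ih => rw [pow_succ, pow_succ]; exact ih.mul h

theorem ml1_ord_eq_zero {f : F} {c : K} (h : Val P f c) (hc : c ≠ 0) : P.ord f = 0 :=
  Fermat.Agent.S18.KL.ord_eq_zero_of_mem_of_inv_mem P h.mem (h.inv hc).mem

theorem ml1_ne_zero {f : F} {c : K} (h : Val P f c) (hc : c ≠ 0) : f ≠ 0 := by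
  rintro rfl
  have h0 : Val P (0 : F) 0 := by
    have := val_const (P := P) (0 : K)
    rwa [map_zero] at this
  exact hc (h.unique h0)

variable (A : ValuationSubring K)

/-- evaluation of a polynomial over `A` at an element of `F` -/
def ml1_pe (s : F) : (↥A)[X] →+* F := Polynomial.eval₂RingHom ((algebraMap K F).comp A.subtype) s

theorem ml1_pe_C (s : F) (a : A) : ml1_pe A s (C a) = algebraMap K F (a : K) := by
  simp [ml1_pe]

theorem ml1_pe_X (s : F) : ml1_pe A s X = s := by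
  simp [ml1_pe]

variable {A}

theorem ml1_val_pe {s : F} {c : A} (h : Val P s (c : K)) (G : (↥A)[X]) :
    Val P (ml1_pe A s G) ((G.eval c : A) : K) := by
  induction G using Polynomial.induction_on' with
  | add p q hp hq =>
    rw [map_add, eval_add]
    exact ml1_val_add hp hq
  | monomial n a =>
    rw [← C_mul_X_pow_eq_monomial, map_mul, map_pow, ml1_pe_C, ml1_pe_X, eval_mul, eval_C,
      eval_pow, eval_X]
    exact (val_const (a : K)).mul (ml1_val_pow h n)

/-- a monic polynomial at a point close to infinity -/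
theorem ml1_val_rev {k : Type*} [Field k] (piA : A →+* k) {t : F} (ht : t ≠ 0) {a' : A}
    (h : Val P t⁻¹ (a' : K)) (ha' : piA a' = 0) (G : (↥A)[X]) (hG : G.Monic) :
    ∃ u : A, piA u = 1 ∧ Val P (ml1_pe A t G * t⁻¹ ^ G.natDegree) (u : K) := by
  refine ⟨G.reverse.eval a', ?_, ?_⟩
  · rw [← Polynomial.eval₂_id, Polynomial.hom_eval₂, RingHom.comp_id, ha',
      Polynomial.eval₂_at_zero, coeff_zero_reverse, hG.leadingCoeff, map_one]
  · have h1 := ml1_val_pe h G.reverse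
    have h2 : ml1_pe A t⁻¹ G.reverse = ml1_pe A t G * t⁻¹ ^ G.natDegree := by
      let _ : Invertible t := invertibleOfNonzero ht
      have h3 := Polynomial.eval₂_reverse_mul_pow ((algebraMap K F).comp A.subtype) t G
      rw [invOf_eq_inv] at h3
      show Polynomial.eval₂ _ t⁻¹ G.reverse = Polynomial.eval₂ _ t G * _
      rw [← h3, mul_assoc, ← mul_pow, mul_inv_cancel₀ ht, one_pow, mul_one]
    rwa [h2] at h1

end ValCalc

section OneChart

variable {K : Type*} [Field K] {A : ValuationSubring K} {k : Type*} [Field k] {piA : A →+* k}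
variable {F : Type*} [Field F] [Algebra K F]
variable {B : Type*} [CommRing B] [IsDedekindDomain B] [Algebra K B] [Algebra B F]
  [IsFractionRing B F] [IsScalarTower K B F] {C : Subring B}
  {Cb : Type*} [CommRing Cb] [IsDedekindDomain Cb] [Algebra k Cb] {rd : C →+* Cb}

theorem ml1_mem_iff {w : HeightOneSpectrum B} {x : HeightOneSpectrum Cb}
    (h : InDisc A C piA rd w x) (y : C) {a : A}
    (ha : Val (ofH K F w) (algebraMap B F y) (a : K)) : rd y ∈ x.asIdeal ↔ piA a = 0 := by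
  obtain ⟨a', ha', hiff⟩ := inDisc_val (F := F) h y
  have : a' = a := Subtype.ext (ha'.unique ha)
  rw [hiff, this]

theorem ml1_coe_eval₂ (h : ChartHyp A C piA rd) (s0 : C) (G : (↥A)[X]) :
    algebraMap B F ((Polynomial.eval₂ (ChartAux.phiC h) s0 G : C) : B) =
      ml1_pe A (algebraMap B F (s0 : B)) G := by
  have h1 := Polynomial.hom_eval₂ G (ChartAux.phiC h) ((algebraMap B F).comp C.subtype) s0
  have h2 : ((algebraMap B F).comp C.subtype).comp (ChartAux.phiC h) =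
      (algebraMap K F).comp A.subtype := by
    ext a
    show algebraMap B F (algebraMap K B (a : K)) = algebraMap K F (a : K)
    rw [← IsScalarTower.algebraMap_apply]
  rw [h2] at h1
  exact h1

end OneChart

section TwoCharts

variable {K : Type*} [Field K] {A : ValuationSubring K} {k : Type*} [Field k] {piA : A →+* k}
variable {F : Type*} [Field F] [Algebra K F] {Ft : Type*} [Field Ft] [Algebra k Ft]
variable {O : Subring F} {red : O →+* Ft} {t : F}
variable {B0 : Type*} [CommRing B0] [IsDedekindDomain B0] [Algebra K B0] [Algebra B0 F]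
  [IsFractionRing B0 F] [IsScalarTower K B0 F] {C0 : Subring B0}
  {Cb0 : Type*} [CommRing Cb0] [IsDedekindDomain Cb0] [Algebra k Cb0] [Algebra Cb0 Ft]
  [IsFractionRing Cb0 Ft] [IsScalarTower k Cb0 Ft] {rd0 : C0 →+* Cb0}
variable {B1 : Type*} [CommRing B1] [IsDedekindDomain B1] [Algebra K B1] [Algebra B1 F]
  [IsFractionRing B1 F] [IsScalarTower K B1 F] {C1 : Subring B1}
  {Cb1 : Type*} [CommRing Cb1] [IsDedekindDomain Cb1] [Algebra k Cb1] [Algebra Cb1 Ft]
  [IsFractionRing Cb1 Ft] [IsScalarTower k Cb1 Ft] {rd1 : C1 →+* Cb1}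

/-- a place where `t` has no value in `A` -/
theorem ml1_dich (h0 : ChartCompat A piA O red C0 rd0 t) (P : Place K F)
    (hP : ¬ ∃ a : A, Val P t (a : K)) : ∃ a : A, piA a = 0 ∧ Val P t⁻¹ (a : K) := by
  have hsurj := h0.hyp.piA_surj
  by_cases htP : t ∈ P.toValuationSubring
  · obtain ⟨c, hc⟩ := exists_val h0 P htP
    have hcA : c ∉ A := fun h => hP ⟨⟨c, h⟩, hc⟩
    obtain ⟨a, ha, hpa⟩ := exists_inv_of_notMem A piA hsurj hcA
    have hc0 : c ≠ 0 := fun h => hcA (h ▸ A.zero_mem)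
    exact ⟨a, hpa, by rw [ha]; exact hc.inv hc0⟩
  · refine ⟨0, map_zero _, ?_⟩
    unfold Val
    rw [ZeroMemClass.coe_zero, map_zero, sub_zero]
    exact van_inv_of_notMem htP

/-- CRT in a Dedekind domain: a uniformiser at `x0` which is a unit at finitely many other primes -/
theorem ml1_crt {R : Type*} [CommRing R] [IsDedekindDomain R] (x0 : HeightOneSpectrum R)
    (T : Set (HeightOneSpectrum R)) (hT : T.Finite) :
    ∃ ϖ : R, ϖ ∈ x0.asIdeal ∧ ϖ ∉ x0.asIdeal ^ 2 ∧ ∀ x ∈ T, x ≠ x0 → ϖ ∉ x.asIdeal := by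
  classical
  obtain ⟨π0, hπ1, hπ2⟩ := ChartAux.exists_uniformizer x0
  obtain ⟨y, hy⟩ := IsDedekindDomain.exists_forall_sub_mem_ideal (s := insert x0 hT.toFinset)
    (fun i : HeightOneSpectrum R => i.asIdeal) (fun _ => 2) (fun i _ => i.prime)
    (fun i _ j _ hij h => hij (HeightOneSpectrum.ext h))
    (fun i => if (i : HeightOneSpectrum R) = x0 then π0 else 1)
  refine ⟨y, ?_, ?_, ?_⟩
  · have h1 := hy x0 (Finset.mem_insert_self _ _)
    simp only [if_true] at h1
    have h2 : y - π0 ∈ x0.asIdeal := Ideal.pow_le_self two_ne_zero h1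
    have := x0.asIdeal.add_mem h2 hπ1
    rwa [sub_add_cancel] at this
  · intro h3
    have h1 := hy x0 (Finset.mem_insert_self _ _)
    simp only [if_true] at h1
    apply hπ2
    have := (x0.asIdeal ^ 2).sub_mem h3 h1
    rwa [sub_sub_cancel] at this
  · intro x hx hne h3
    have h1 := hy x (Finset.mem_insert_of_mem (hT.mem_toFinset.mpr hx))
    simp only [if_neg hne] at h1
    have h2 : y - 1 ∈ x.asIdeal := Ideal.pow_le_self two_ne_zero h1
    have := x.asIdeal.sub_mem h3 h2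
    rw [sub_sub_cancel] at this
    exact x.isPrime.ne_top ((Ideal.eq_top_iff_one _).mpr this)

/-- **abstract form of ML1** -/
theorem ml1_abs (ht : t ≠ 0)
    (h0 : ChartCompat A piA O red C0 rd0 t) (h1 : ChartCompat A piA O red C1 rd1 t⁻¹)
    (hmon : ∀ G : (↥A)[X], G.Monic → ∀ y : C0, algebraMap B0 F (y : B0) = ml1_pe A t G → rd0 y ≠ 0)
    (htr : ∀ y : C0, ∃ (m : ℕ) (b : C1), algebraMap B1 F (b : B1) = t⁻¹ ^ m * algebraMap B0 F (y : B0))
    (θ : (↥A)[X]) (hθ : θ.Monic) (P : Place K F) (c : A) (hP : Val P t (c : K)) :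
    ∃ f : F, f ≠ 0 ∧ P.ord f = 1 ∧
      ∀ P' : Place K F, P' ≠ P → P'.ord f ≠ 0 → GoodAt A t θ P' := by
  classical
  have hsurj := h0.hyp.piA_surj
  obtain ⟨s0, hs0, -, -⟩ := h0.coord
  obtain ⟨_, w0, x0, rfl, -, hd0⟩ := exists_redC_of_val h0 P c hP
  obtain ⟨θ1, hθ1⟩ : ∃ θ1 : (↥A)[X], θ1 = θ * (X - C c) := ⟨_, rfl⟩
  have hθ1m : θ1.Monic := by rw [hθ1]; exact hθ.mul (monic_X_sub_C c)
  have hθ1e : ∀ c' : A, θ1.eval c' = θ.eval c' * (c' - c) := by
    intro c'; rw [hθ1]; simp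
  obtain ⟨Θ, hΘ⟩ : ∃ Θ : C0, algebraMap B0 F (Θ : B0) = ml1_pe A t θ1 :=
    ⟨_, by rw [ml1_coe_eval₂ h0.hyp s0 θ1, hs0]⟩
  obtain ⟨ΘF, hΘF⟩ : ∃ ΘF : F, ΘF = ml1_pe A t θ1 := ⟨_, rfl⟩
  rw [← hΘF] at hΘ
  have hΘne : rd0 Θ ≠ 0 := hmon θ1 hθ1m Θ (by rw [hΘ, hΘF])
  -- values of `Θ`
  have hΘval : ∀ (P' : Place K F) (c' : A), Val P' t (c' : K) → Val P' ΘF ((θ1.eval c' : A) : K) := by
    intro P' c' hc'
    rw [hΘF]; exact ml1_val_pe hc' θ1
  have hΘmem : ∀ (w : HeightOneSpectrum B0) (x : HeightOneSpectrum Cb0) (c' : A),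
      InDisc A C0 piA rd0 w x → Val (ofH K F w) t (c' : K) →
        (rd0 Θ ∈ x.asIdeal ↔ piA (θ1.eval c') = 0) := by
    intro w x c' hd hc'
    exact ml1_mem_iff hd Θ (by rw [hΘ]; exact hΘval _ c' hc')
  have hΘx0 : rd0 Θ ∈ x0.asIdeal := by
    rw [hΘmem w0 x0 c hd0 hP, hθ1e, sub_self, mul_zero, map_zero]
  -- the finite set `T`
  have hTfin : {x : HeightOneSpectrum Cb0 | rd0 Θ ∈ x.asIdeal}.Finite := by
    refine (ChartAux.finite_support hΘne).subset fun x hx => ?_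
    show ordH x (rd0 Θ) ≠ 0
    rw [Ne, ChartAux.ordH_eq_zero_iff x hΘne, not_not]
    exact hx
  obtain ⟨ϖb, hϖ1, hϖ2, hϖ3⟩ := ml1_crt x0 _ hTfin
  obtain ⟨a0, ha0⟩ := h0.hyp.rd_surj ϖb
  obtain ⟨m1, b, hb⟩ := htr a0
  obtain ⟨d, hd⟩ : ∃ d : ℕ, d = θ1.natDegree := ⟨_, rfl⟩
  obtain ⟨m, hm⟩ : ∃ m : ℕ, m = m1 + 1 + 2 * d := ⟨_, rfl⟩
  obtain ⟨z, hz⟩ : ∃ z : C0, z = s0 ^ (m1 + 1) * Θ ^ 2 := ⟨_, rfl⟩
  have hzmem : ∀ x : HeightOneSpectrum Cb0, rd0 Θ ∈ x.asIdeal → rd0 z ∈ x.asIdeal ^ 2 := by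
    intro x hx
    rw [hz, map_mul, map_pow, map_pow]
    exact Ideal.mul_mem_left _ _ (Ideal.pow_mem_pow hx 2)
  obtain ⟨κ, hκ, hκiff⟩ := hd0 (a0 + z)
  have hκ0 : piA κ = 0 := by
    rw [← hκiff, map_add, ha0]
    exact x0.asIdeal.add_mem hϖ1 (Ideal.pow_le_self two_ne_zero (hzmem x0 hΘx0))
  obtain ⟨a, ha⟩ : ∃ a : C0, a = a0 + z - ChartAux.phiC h0.hyp κ := ⟨_, rfl⟩
  have hard : rd0 a = ϖb + rd0 z := by
    rw [ha, map_sub, map_add, ha0, ChartAux.rd_phiC, hκ0, map_zero, sub_zero]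
  have haw0 : (a : B0) ∈ w0.asIdeal := by
    rw [ha]; exact hκ
  have hax1 : rd0 a ∈ x0.asIdeal := by
    rw [hard]
    exact x0.asIdeal.add_mem hϖ1 (Ideal.pow_le_self two_ne_zero (hzmem x0 hΘx0))
  have hax2 : rd0 a ∉ x0.asIdeal ^ 2 := by
    intro h
    rw [hard] at h
    apply hϖ2
    have := (x0.asIdeal ^ 2).sub_mem h (hzmem x0 hΘx0)
    rwa [add_sub_cancel_right] at this
  have hane : (a : B0) ≠ 0 := ChartAux.coe_ne_zero (fun h => hax2 (h ▸ Ideal.zero_mem _))
  have hord0 : ordH w0 (a : B0) = 1 := ChartAux.ordH_unif h0.hyp hd0 a haw0 hax1 hax2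
  obtain ⟨aF, haF⟩ : ∃ aF : F, aF = algebraMap B0 F (a : B0) := ⟨_, rfl⟩
  have haFne : aF ≠ 0 := by
    rw [haF, Ne, map_eq_zero_iff _ (IsFractionRing.injective B0 F)]
    exact hane
  have haFexp : aF = algebraMap B0 F (a0 : B0) + t ^ (m1 + 1) * ΘF ^ 2 - algebraMap K F (κ : K) := by
    rw [haF, ha, hz, ← hΘ]
    show algebraMap B0 F ((a0 : B0) + (s0 : B0) ^ (m1 + 1) * (Θ : B0) ^ 2 - algebraMap K B0 (κ : K)) = _
    rw [map_sub, map_add, map_mul, map_pow, map_pow, ← IsScalarTower.algebraMap_apply, hs0]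
  obtain ⟨hF, hhF⟩ : ∃ hF : F, hF = 1 + t ^ (m - d) * ΘF := ⟨_, rfl⟩
  -- values of `hF` in the first chart
  have hhval : ∀ (P' : Place K F) (c' : A), Val P' t (c' : K) → piA (θ1.eval c') = 0 →
      hF ≠ 0 ∧ P'.ord hF = 0 := by
    intro P' c' hc' hpi
    have h3 : Val P' hF (((1 + c' ^ (m - d) * θ1.eval c' : A)) : K) := by
      rw [hhF]
      exact ml1_val_add val_one ((ml1_val_pow hc' _).mul (hΘval P' c' hc'))
    have h4 : ((1 + c' ^ (m - d) * θ1.eval c' : A) : K) ≠ 0 := by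
      intro h5
      have h6 : (1 + c' ^ (m - d) * θ1.eval c' : A) = 0 := Subtype.ext h5
      have h7 := congrArg piA h6
      rw [map_add, map_mul, hpi, mul_zero, add_zero, map_one, map_zero] at h7
      exact one_ne_zero h7
    exact ⟨ml1_ne_zero h3 h4, ml1_ord_eq_zero h3 h4⟩
  have hh0 := hhval _ c hP (by rw [hθ1e, sub_self, mul_zero, map_zero])
  have hordf : ∀ P' : Place K F, P'.ord (aF / hF) = P'.ord aF - P'.ord hF := by
    intro P'
    rw [div_eq_mul_inv, P'.ord_mul haFne (inv_ne_zero hh0.1), P'.ord_inv]; ring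
  refine ⟨aF / hF, div_ne_zero haFne hh0.1, ?_, ?_⟩
  · rw [hordf, hh0.2, haF, ord_ofH_algebraMap w0 hane, hord0]; rfl
  · intro P' hne hord
    by_cases hT : ∃ c' : A, Val P' t (c' : K)
    · obtain ⟨c', hc'⟩ := hT
      by_cases hu : IsUnit (θ.eval c')
      · exact ⟨c', hc', hu⟩
      · exfalso
        apply hord
        have hpi : piA (θ1.eval c') = 0 := by
          rw [hθ1e, map_mul, piA_eq_zero_of_not_isUnit A piA hsurj hu, zero_mul]
        obtain ⟨_, w, x, rfl, -, hdw⟩ := exists_redC_of_val h0 P' c' hc'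
        have hΘx : rd0 Θ ∈ x.asIdeal := (hΘmem w x c' hdw hc').mpr hpi
        have haw : (a : B0) ∉ w.asIdeal := by
          intro haw
          by_cases hx : x = x0
          · subst hx
            exact hne (by rw [ChartAux.eq_of_mem h0.hyp hd0 hdw a haw0 hax1 hax2 haw])
          · have h3 := ChartAux.rd_mem_of_mem hdw a haw
            rw [hard] at h3
            apply hϖ3 x hΘx hx
            have := x.asIdeal.sub_mem h3 (Ideal.pow_le_self two_ne_zero (hzmem x hΘx))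
            rwa [add_sub_cancel_right] at this
        rw [hordf, (hhval _ c' hc' hpi).2, haF, ord_ofH_algebraMap w hane,
          (ChartAux.ordH_eq_zero_iff w hane).mpr haw]
        rfl
    · exfalso
      apply hord
      obtain ⟨a', hpa', hva'⟩ := ml1_dich h0 P' hT
      obtain ⟨_, w', x', rfl, -, hdw'⟩ := exists_redC_of_val h1 P' a' hva'
      obtain ⟨β, hβ, -⟩ := inDisc_val (F := F) hdw' b
      obtain ⟨u, hu1, hu⟩ := ml1_val_rev piA ht hva' hpa' θ1 hθ1m
      rw [← hΘF, ← hd] at hu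
      have hts : ∀ n : ℕ, t ^ n * t⁻¹ ^ n = 1 := by
        intro n; rw [← mul_pow, mul_inv_cancel₀ ht, one_pow]
      have hmd : m = (m - d) + d := by omega
      -- `aF * s ^ m`
      have e1 : aF * t⁻¹ ^ m = algebraMap B1 F (b : B1) * t⁻¹ ^ (1 + 2 * d) + (ΘF * t⁻¹ ^ d) ^ 2
          - algebraMap K F (κ : K) * t⁻¹ ^ m := by
        rw [haFexp, hb]
        have e2 : t⁻¹ ^ m = t⁻¹ ^ m1 * t⁻¹ ^ (1 + 2 * d) := by rw [← pow_add]; congr 1; omega
        have e3 : t ^ (m1 + 1) * ΘF ^ 2 * t⁻¹ ^ m = (ΘF * t⁻¹ ^ d) ^ 2 := by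
          have e4 : t⁻¹ ^ m = t⁻¹ ^ (m1 + 1) * (t⁻¹ ^ d) ^ 2 := by
            rw [← pow_mul, ← pow_add]; congr 1; omega
          rw [e4, mul_pow]
          linear_combination (ΘF ^ 2 * (t⁻¹ ^ d) ^ 2) * hts (m1 + 1)
        rw [sub_mul, add_mul, e3]
        congr 2
        rw [e2]; ring
      have v1 : Val (ofH K F w') (aF * t⁻¹ ^ m)
          ((β * a' ^ (1 + 2 * d) + u ^ 2 - κ * a' ^ m : A) : K) := by
        rw [e1]
        exact ml1_val_sub (ml1_val_add (hβ.mul (ml1_val_pow hva' _)) (ml1_val_pow hu 2))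
          ((val_const _).mul (ml1_val_pow hva' _))
      have n1 : ((β * a' ^ (1 + 2 * d) + u ^ 2 - κ * a' ^ m : A) : K) ≠ 0 := by
        intro h5
        have h6 : (β * a' ^ (1 + 2 * d) + u ^ 2 - κ * a' ^ m : A) = 0 := Subtype.ext h5
        have h7 := congrArg piA h6
        rw [map_sub, map_add, map_mul, map_mul, map_pow, map_pow, map_pow, hpa', hu1, hκ0,
          zero_pow (by omega), mul_zero, zero_mul, map_zero] at h7
        simp at h7
      -- `hF * s ^ m`
      have e5 : hF * t⁻¹ ^ m = t⁻¹ ^ m + ΘF * t⁻¹ ^ d := by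
        rw [hhF, add_mul, one_mul]
        congr 1
        have e6 : t⁻¹ ^ m = t⁻¹ ^ (m - d) * t⁻¹ ^ d := by rw [← pow_add, ← hmd]
        rw [e6]
        linear_combination (ΘF * t⁻¹ ^ d) * hts (m - d)
      have v2 : Val (ofH K F w') (hF * t⁻¹ ^ m) ((a' ^ m + u : A) : K) := by
        rw [e5]
        exact ml1_val_add (ml1_val_pow hva' _) hu
      have n2 : ((a' ^ m + u : A) : K) ≠ 0 := by
        intro h5
        have h6 : (a' ^ m + u : A) = 0 := Subtype.ext h5
        have h7 := congrArg piA h6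
        rw [map_add, map_pow, hpa', hu1, zero_pow (by omega), map_zero] at h7
        simp at h7
      have o1 := ml1_ord_eq_zero v1 n1
      have o2 := ml1_ord_eq_zero v2 n2
      have hsne : t⁻¹ ^ m ≠ 0 := pow_ne_zero _ (inv_ne_zero ht)
      rw [Place.ord_mul _ haFne hsne] at o1
      rw [Place.ord_mul _ hh0.1 hsne] at o2
      rw [hordf]
      omega

end TwoCharts

section Inst

open Fermat.Agent.S18.KL

variable {K : Type*} [Field K] {A : ValuationSubring K}
variable {L : Type*} [Field L] [Algebra K L] {τ : L}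
variable {F : Type*} [Field F] [Algebra L F] [Algebra K F] [IsScalarTower K L F]
variable {Ft : Type*} [Field Ft] [Algebra (kk A) Ft] {O : Subring F} {red : O →+* Ft}

theorem ml1_pe_eq_evE (G : (↥A)[X]) : ml1_pe A (algebraMap L F τ) G = evE A τ F G := by
  rw [evE_apply]
  have h1 := Polynomial.hom_eval₂ G ((algebraMap K L).comp A.subtype) (algebraMap L F) τ
  have h2 : (algebraMap L F).comp ((algebraMap K L).comp A.subtype) =
      (algebraMap K F).comp A.subtype := by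
    ext a
    show algebraMap L F (algebraMap K L (a : K)) = algebraMap K F (a : K)
    rw [← IsScalarTower.algebraMap_apply]
  rw [h2] at h1
  exact h1.symm

set_option linter.style.haveILetI false in
/-- [S19/G-ML1] -/
theorem ml1_point [IsAlgClosed K] [CharZero K] [FiniteDimensional L F] (hA : Arch A)
    (hτ : Transcendental K τ) (hgen : IsGen K τ) {ι : Type*} [Fintype ι] (g : GoodRed A τ F ι)
    (c0 : A) (hc0 : IsUnit c0) (hbr : Br K τ F (c0 : K)) (h : RedData A τ F O red)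
    (θ : (↥A)[X]) (hθ : θ.Monic) (P : Place K F) (c : A)
    (hP : Glue.Val P (algebraMap L F τ) (c : K)) :
    ∃ f : F, f ≠ 0 ∧ P.ord f = 1 ∧
      ∀ P' : Place K F, P' ≠ P → P'.ord f ≠ 0 → GoodAt A (algebraMap L F τ) θ P' := by
  classical
  have hτ' := transcendental_inv' hτ
  have hgen' := isGen_inv hτ hgen
  have h' : RedData A τ⁻¹ F O red := h.inv hτ
  obtain ⟨gb⟩ := exists_goodBasis hτ hgen g
  obtain ⟨gb'⟩ := exists_goodBasis hτ' hgen' (g.inv hτ)
  obtain ⟨c0u, rfl⟩ := hc0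
  have hc0ne : ((c0u : A)) ≠ 0 := c0u.ne_zero
  have hc0inv : (((c0u⁻¹ : Aˣ) : A) : K) = ((c0u : A) : K)⁻¹ := by
    have : ((c0u : A) : K) * (((c0u⁻¹ : Aˣ) : A) : K) = 1 := by
      have h := congrArg (Subtype.val) (c0u.mul_inv)
      exact h
    exact eq_inv_of_mul_eq_one_right this
  have hD : DiffHyp A τ F (X * (X - C (c0u : A))) := diffHyp hτ hgen _ hc0ne hbr
  have hD' : DiffHyp A τ⁻¹ F (X * (X - C ((c0u⁻¹ : Aˣ) : A))) :=
    diffHyp hτ' hgen' _ (c0u⁻¹).ne_zero (by rw [hc0inv]; exact hbr.inv hτ)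
  have hfg : FgC0 A τ F := fgC0 hτ hgen hA gb
  have hfg' : FgC0 A τ⁻¹ F := fgC0 hτ' hgen' hA gb'
  haveI := isDomain_Cbar hτ hgen h
  haveI := isDomain_Cbar hτ' hgen' h'
  haveI : IsDedekindDomain (Cbar A τ F) :=
    isDedekindDomain_Cbar hτ hgen gb _ (squarefree_theta _ c0u.isUnit) hD
  haveI : IsDedekindDomain (Cbar A τ⁻¹ F) :=
    isDedekindDomain_Cbar hτ' hgen' gb' _ (squarefree_theta _ (c0u⁻¹).isUnit) hD'
  haveI : IsDedekindDomain ↥(B0 K τ F) := isDedekindDomain_B0 hτ hgen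
  haveI : IsDedekindDomain ↥(B0 K τ⁻¹ F) := isDedekindDomain_B0 hτ' hgen'
  haveI : IsFractionRing ↥(B0 K τ F) F := isFractionRing_B0 hτ hgen
  haveI : IsFractionRing ↥(B0 K τ⁻¹ F) F := isFractionRing_B0 hτ' hgen'
  letI : Algebra (Cbar A τ F) Ft := h.barToFt.toAlgebra
  letI : Algebra (Cbar A τ⁻¹ F) Ft := h'.barToFt.toAlgebra
  have hbar : BarCompat A τ F O red := h.barCompat
  have hbar' : BarCompat A τ⁻¹ F O red := h'.barCompat
  haveI : IsFractionRing (Cbar A τ F) Ft := isFractionRing_Cbar hτ hgen h hbar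
  haveI : IsFractionRing (Cbar A τ⁻¹ F) Ft := isFractionRing_Cbar hτ' hgen' h' hbar'
  haveI : IsScalarTower (kk A) (Cbar A τ F) Ft := isScalarTower_Cbar h hbar
  haveI : IsScalarTower (kk A) (Cbar A τ⁻¹ F) Ft := isScalarTower_Cbar h' hbar'
  have hc : ChartCompat A (IsLocalRing.residue A) O red (CC A τ F) (rdC A τ F) (algebraMap L F τ) :=
    chartCompat hτ hgen hfg gb h hbar
  have hc' : ChartCompat A (IsLocalRing.residue A) O red (CC A τ⁻¹ F) (rdC A τ⁻¹ F)
      (algebraMap L F τ)⁻¹ := by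
    rw [← map_inv₀]
    exact chartCompat hτ' hgen' hfg' gb' h' hbar'
  have ht0 : algebraMap L F τ ≠ 0 := by
    simpa using ne_zero_of_transcendental hτ
  refine ml1_abs ht0 hc hc' ?_ ?_ θ hθ P c hP
  · intro G hG y hy hrd
    rw [rdC_eq_zero_iff] at hrd
    have hy' : ((y : ↥(B0 K τ F)) : F) = evE A τ F G := by
      rw [← ml1_pe_eq_evE]; exact hy
    rw [hy'] at hrd
    exact br4_not_SmV_evE hτ hgen ((hG.map (IsLocalRing.residue A)).ne_zero) (Sm0.SmV A hrd)
  · intro y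
    obtain ⟨m, hm⟩ := exists_pow_inv_mul_mem A hτ (C0_le_C01 A y.2)
    refine ⟨m, ofC0 A τ⁻¹ F ⟨_, hm⟩, ?_⟩
    show evE A τ⁻¹ F (X ^ m) * ((y : ↥(B0 K τ F)) : F) = _
    rw [map_pow, evE_apply, evL_X, map_inv₀]
    rfl

end Inst

end Fermat.Agent.S19
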